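import Fermat.Agent.FF.Divisor
import Mathlib.RingTheory.AlgebraicIndependent.TranscendenceBasis
import Mathlib.RingTheory.AlgebraicIndependent.Transcendental
import Mathlib.FieldTheory.FinTrdeg
import Mathlib.FieldTheory.Perfect

/-!
# Function fields of one variable: divisors of functions
-/

set_option autoImplicit false
set_option linter.unusedSectionVars false
set_option linter.style.haveILetI false

open IsDedekindDomain WithZero IsLocalRing AlgebraicCurve IntermediateField
open scoped IntermediateField.algebraAdjoinAdjoin

namespace Fermat.Agent.FF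

/-- `F/K` is a function field in one variable (finitely generated of transcendence degree `1`). -/
class IsFnField (K F : Type*) [Field K] [Field F] [Algebra K F] : Prop where
  essFinite : Algebra.EssFiniteType K F
  trdeg_eq_one : Algebra.trdeg K F = 1

variable {K F : Type*} [Field K] [Field F] [Algebra K F]

theorem isTranscendenceBasis_of_transcendental (h1 : Algebra.trdeg K F = 1) {x : F}
    (hx : Transcendental K x) : IsTranscendenceBasis K (fun _ : Unit => x) := by
  have hx' : AlgebraicIndependent K (fun _ : Unit => x) :=
    algebraicIndependent_unique_type_iff.mpr hx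
  apply AlgebraicIndependent.isTranscendenceBasis_of_lift_trdeg_le_of_finite hx'
  rw [h1]
  simp

theorem isAlgebraic_adjoin_of_transcendental (h1 : Algebra.trdeg K F = 1) {x : F}
    (hx : Transcendental K x) : Algebra.IsAlgebraic K⟮x⟯ F := by
  have h := (isTranscendenceBasis_of_transcendental h1 hx).isAlgebraic_field
  rwa [Set.range_const] at h

/-- An essentially finite type algebraic field extension is finite. -/
theorem finiteDimensional_of_essFiniteType {E : Type*} [Field E] [Algebra E F]
    [Algebra.EssFiniteType E F] [Algebra.IsAlgebraic E F] : FiniteDimensional E F := by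
  obtain ⟨s, hs⟩ := IntermediateField.fg_top E F
  have h1 : FiniteDimensional E (IntermediateField.adjoin E (s : Set F)) :=
    IntermediateField.finiteDimensional_adjoin fun y _ =>
      (Algebra.IsAlgebraic.isAlgebraic y).isIntegral
  rw [hs] at h1
  exact Module.Finite.equiv (IntermediateField.topEquiv (F := E) (E := F)).toLinearEquiv

theorem IsFnField.finiteDimensional [h : IsFnField K F] {x : F} (hx : Transcendental K x) :
    FiniteDimensional K⟮x⟯ F := by
  haveI := isAlgebraic_adjoin_of_transcendental h.trdeg_eq_one hx
  haveI := h.essFinite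
  haveI : Algebra.EssFiniteType K⟮x⟯ F := Algebra.EssFiniteType.of_comp K K⟮x⟯ F
  exact finiteDimensional_of_essFiniteType

theorem IsFnField.of_finiteDimensional {x : F} (hx : Transcendental K x)
    [FiniteDimensional K⟮x⟯ F] : IsFnField K F := by
  have hx' : AlgebraicIndependent K (fun _ : Unit => x) :=
    algebraicIndependent_unique_type_iff.mpr hx
  constructor
  · haveI : Algebra.EssFiniteType K K⟮x⟯ := by
      rw [IntermediateField.essFiniteType_iff]
      exact IntermediateField.fg_adjoin_finset {x} |> fun h => by simpa using h
    exact Algebra.EssFiniteType.comp K K⟮x⟯ F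
  · have halg : Algebra.IsAlgebraic K⟮x⟯ F := Algebra.IsAlgebraic.of_finite _ _
    have hb : IsTranscendenceBasis K (fun _ : Unit => x) := by
      rw [hx'.isTranscendenceBasis_iff_isAlgebraic]
      rw [Set.range_const]
      exact Algebra.IsAlgebraic.trans (Algebra.adjoin K {x}) K⟮x⟯ F
    have := hb.lift_cardinalMk_eq_trdeg
    simpa using this.symm

section Places

variable [IsFnField K F]

theorem ord_eq_zero_of_isAlgebraic (v : Place K F) {f : F} (hf : IsAlgebraic K f) :
    v.ord f = 0 := by
  rcases eq_or_ne f 0 with rfl | hf0
  · simp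
  have key : ∀ g : F, IsAlgebraic K g → 0 ≤ v.ord g := by
    intro g hg
    have hg' : IsIntegral K g := hg.isIntegral
    have hg'' : IsIntegral v.toValuationSubring g := hg'.tower_top
    obtain ⟨y, hy⟩ := IsIntegrallyClosed.isIntegral_iff.mp hg''
    apply ord_nonneg_of_mem
    rw [← hy]
    exact y.2
  apply le_antisymm _ (key f hf)
  have := key f⁻¹ hf.inv
  rw [v.ord_inv] at this
  linarith

theorem transcendental_of_ord_ne_zero (v : Place K F) {f : F} (hf : v.ord f ≠ 0) :
    Transcendental K f := fun h => hf (ord_eq_zero_of_isAlgebraic v h)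

variable [CharZero K]

theorem finite_zeros_of_fnField (f : F) : (zeros (K := K) f).Finite := by
  by_cases hf : Transcendental K f
  · haveI := IsFnField.finiteDimensional hf
    haveI : CharZero K⟮f⟯ := charZero_of_injective_algebraMap (algebraMap K K⟮f⟯).injective
    exact finite_zeros hf
  · have : zeros (K := K) f = ∅ := by
      ext v
      simp only [zeros, Set.mem_ofPred_eq, Set.mem_empty_iff_false, iff_false, not_lt]
      rw [ord_eq_zero_of_isAlgebraic v (not_not.mp hf)]
    rw [this]
    exact Set.finite_empty

theorem finite_support_ord (f : F) : {v : Place K F | v.ord f ≠ 0}.Finite := by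
  refine ((finite_zeros_of_fnField (K := K) f).union
    (finite_zeros_of_fnField (K := K) f⁻¹)).subset ?_
  intro v hv
  rw [Set.mem_ofPred_eq] at hv
  rcases lt_or_gt_of_ne hv with h | h
  · right
    change 0 < v.ord f⁻¹
    rw [v.ord_inv]
    linarith
  · exact Or.inl h

theorem adjoin_simple_inv (f : F) : K⟮f⁻¹⟯ = K⟮f⟯ := by
  apply le_antisymm
  · rw [IntermediateField.adjoin_simple_le_iff]
    exact inv_mem (IntermediateField.mem_adjoin_simple_self K f)
  · rw [IntermediateField.adjoin_simple_le_iff]
    have := inv_mem (IntermediateField.mem_adjoin_simple_self K f⁻¹)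
    rwa [inv_inv] at this

theorem transcendental_inv {f : F} (hf : Transcendental K f) : Transcendental K f⁻¹ := by
  intro h
  apply hf
  have := h.inv
  rwa [inv_inv] at this

theorem sum_zeros_fnField {f : F} (hf : Transcendental K f) :
    ∑ᶠ v ∈ zeros (K := K) f, v.ord f * (v.deg : ℤ) = Module.finrank K⟮f⟯ F := by
  haveI := IsFnField.finiteDimensional hf
  haveI : CharZero K⟮f⟯ := charZero_of_injective_algebraMap (algebraMap K K⟮f⟯).injective
  exact sum_zeros hf

/-- The divisor of a function. -/
noncomputable def divOf (f : F) : Divisor K F :=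
  Finsupp.ofSupportFinite (fun v => v.ord f) (finite_support_ord f)

@[simp] theorem divOf_apply (f : F) (v : Place K F) : divOf (K := K) f v = v.ord f := rfl

theorem degree_eq_finsum (D : Divisor K F) :
    Divisor.degree D = ∑ᶠ v, D v * (v.deg : ℤ) := by
  have h : (Function.support fun v => D v * (v.deg : ℤ)) ⊆ (D.support : Set (Place K F)) := by
    intro v hv
    simp only [Function.mem_support, ne_eq, mul_eq_zero, not_or] at hv
    simpa using hv.1
  rw [finsum_eq_sum_of_support_subset _ h]
  simp [Divisor.degree, Finsupp.liftAddHom_apply, Finsupp.sum]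

theorem degree_divOf (f : F) : Divisor.degree (divOf (K := K) f) = 0 := by
  rw [degree_eq_finsum]
  by_cases hf : Transcendental K f
  · have hz := finite_zeros_of_fnField (K := K) f
    have hp := finite_zeros_of_fnField (K := K) f⁻¹
    have h1 : (Function.support fun v : Place K F => divOf (K := K) f v * (v.deg : ℤ)) ⊆
        zeros (K := K) f ∪ zeros (K := K) f⁻¹ := by
      intro v hv
      simp only [Function.mem_support, ne_eq, mul_eq_zero, not_or, divOf_apply] at hv
      rcases lt_or_gt_of_ne hv.1 with h | h
      · right
        change 0 < v.ord f⁻¹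
        rw [v.ord_inv]
        linarith
      · exact Or.inl h
    have hdisj : Disjoint (zeros (K := K) f) (zeros (K := K) f⁻¹) := by
      rw [Set.disjoint_left]
      intro v hv hv'
      change 0 < v.ord f at hv
      change 0 < v.ord f⁻¹ at hv'
      rw [v.ord_inv] at hv'
      linarith
    have h2 : ∑ᶠ v ∈ zeros (K := K) f ∪ zeros (K := K) f⁻¹,
        divOf (K := K) f v * (v.deg : ℤ) = ∑ᶠ v, divOf (K := K) f v * (v.deg : ℤ) := by
      rw [← finsum_mem_inter_support, Set.inter_eq_right.mpr h1, finsum_mem_support]
    rw [← h2, finsum_mem_union hdisj hz hp]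
    have h3 := sum_zeros_fnField hf
    have h4 := sum_zeros_fnField (transcendental_inv hf)
    have h5 : ∑ᶠ v ∈ zeros (K := K) f⁻¹, divOf (K := K) f v * (v.deg : ℤ) =
        - ∑ᶠ v ∈ zeros (K := K) f⁻¹, v.ord f⁻¹ * (v.deg : ℤ) := by
      rw [← finsum_mem_neg_distrib _ hp]
      refine finsum_mem_congr rfl fun v _ => ?_
      rw [divOf_apply, v.ord_inv]
      ring
    rw [h5, h4]
    simp only [divOf_apply]
    rw [h3, adjoin_simple_inv, add_neg_cancel]
  · have : ∀ v : Place K F, divOf (K := K) f v * (v.deg : ℤ) = 0 := by
      intro v
      rw [divOf_apply, ord_eq_zero_of_isAlgebraic v (not_not.mp hf), zero_mul]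
    rw [finsum_congr this, finsum_zero]

variable (K F) in
theorem hasPrincipalDivisors : HasPrincipalDivisors K F where
  exists_divisor f _ := ⟨divOf f, fun _ => rfl, degree_divOf f⟩

theorem finite_residueField (v : Place K F) : Module.Finite K v.ResidueField := by
  obtain ⟨t, -, ht⟩ := exists_ord_eq_one v
  have htr : Transcendental K t := transcendental_of_ord_ne_zero v (by rw [ht]; norm_num)
  haveI := IsFnField.finiteDimensional htr
  haveI : CharZero K⟮t⟯ := charZero_of_injective_algebraMap (algebraMap K K⟮t⟯).injective
  apply finite_residueField_of_mem_zeros htr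
  change 0 < v.ord t
  rw [ht]
  norm_num

theorem deg_eq_one [IsAlgClosed K] (v : Place K F) : v.deg = 1 :=
  haveI := finite_residueField v
  v.deg_eq_one_of_isAlgClosed_of_finite

end Places

end Fermat.Agent.FF
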