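import Fermat.Agent.FF.Canonical
import Fermat.Prelude.Def_AlgebraicCurve_DivisorPushPull

/-!
# Valuation rings and places; extension of places
-/

set_option autoImplicit false
set_option linter.unusedSectionVars false
set_option linter.style.haveILetI false

open IsDedekindDomain WithZero IsLocalRing AlgebraicCurve IntermediateField
open scoped IntermediateField.algebraAdjoinAdjoin

namespace Fermat.Agent.FF

section

variable {K F : Type*} [Field K] [Field F] [Algebra K F] [IsFnField K F] [CharZero K]

/-- Every non-trivial valuation ring of `F/K` is a place. -/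
theorem exists_place_of_valuationSubring (V : ValuationSubring F)
    (hK : ∀ a : K, algebraMap K F a ∈ V) (hV : V ≠ ⊤) :
    ∃ v : Place K F, v.toValuationSubring = V := by
  obtain ⟨f, hf⟩ : ∃ f : F, f ∉ V := by
    by_contra h
    push Not at h
    exact hV (eq_top_iff.mpr fun f _ => h f)
  have hf0 : f ≠ 0 := by
    rintro rfl
    exact hf V.zero_mem
  set x := f⁻¹ with hx
  have hxV : x ∈ V := (V.mem_or_inv_mem f).resolve_left hf
  letI : Algebra K V := ((algebraMap K F).codRestrict V.toSubring hK).toAlgebra
  haveI : IsScalarTower K V F := IsScalarTower.of_algebraMap_eq fun _ => rfl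
  have hxtr : Transcendental K x := by
    intro h
    have h1 : IsIntegral K f := by
      have := h.inv
      rw [hx, inv_inv] at this
      exact this.isIntegral
    have h2 : IsIntegral V f := h1.tower_top
    obtain ⟨y, hy⟩ := IsIntegrallyClosed.isIntegral_iff.mp h2
    apply hf
    rw [← hy]
    exact y.2
  haveI := IsFnField.finiteDimensional hxtr
  haveI : CharZero K⟮x⟯ := charZero_of_injective_algebraMap (algebraMap K K⟮x⟯).injective
  let V' : Subalgebra K F := { V.toSubring with algebraMap_mem' := hK }
  have hA : ∀ a : Algebra.adjoin K {x}, algebraMap _ F a ∈ V := by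
    intro a
    have h1 : Algebra.adjoin K {x} ≤ V' := by
      apply Algebra.adjoin_le
      rintro _ rfl
      exact hxV
    exact h1 a.2
  let B := integralClosure (Algebra.adjoin K {x}) F
  have hB : ∀ b : B, algebraMap B F b ∈ V := by
    intro b
    have hb : IsIntegral (Algebra.adjoin K {x}) (algebraMap B F b) := b.2
    letI : Algebra (Algebra.adjoin K {x}) V :=
      ((algebraMap (Algebra.adjoin K {x}) F).codRestrict V.toSubring hA).toAlgebra
    haveI : IsScalarTower (Algebra.adjoin K {x}) V F := IsScalarTower.of_algebraMap_eq fun _ => rfl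
    have hb'' : IsIntegral V (algebraMap B F b) := hb.tower_top
    obtain ⟨y, hy⟩ := IsIntegrallyClosed.isIntegral_iff.mp hb''
    rw [← hy]
    exact y.2
  let P : Ideal B := (maximalIdeal V).comap ((algebraMap B F).codRestrict V.toSubring hB)
  have hPmem : ∀ b : B, b ∈ P ↔ ¬ IsUnit (⟨algebraMap B F b, hB b⟩ : V) := fun b => Iff.rfl
  haveI hprime : P.IsPrime := Ideal.IsPrime.comap _
  have hunit : ∀ (b : V), IsUnit b → (b : F)⁻¹ ∈ V := by
    rintro b ⟨u, rfl⟩
    have h1 : ((u : V) : F)⁻¹ = ((u⁻¹ : Vˣ) : V) := by
      apply inv_eq_of_mul_eq_one_right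
      exact_mod_cast congrArg Subtype.val (u.mul_inv)
    rw [h1]
    exact SetLike.coe_mem _
  have hne : P ≠ ⊥ := by
    have h1 : algebraMap (Algebra.adjoin K {x}) B (gen x) ∈ P := by
      rw [hPmem]
      intro h
      have h2 := hunit _ h
      apply hf
      have h3 : ((⟨algebraMap B F (algebraMap (Algebra.adjoin K {x}) B (gen x)), hB _⟩ : V) : F)
          = x := rfl
      rw [h3, hx, inv_inv] at h2
      exact h2
    intro h
    rw [h, Ideal.mem_bot] at h1
    have h2 := congrArg (algebraMap B F) h1
    rw [map_zero] at h2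
    exact transcendental_ne_zero hxtr h2
  let w : HeightOneSpectrum B := ⟨P, hprime, hne⟩
  refine ⟨Place.ofHeightOneSpectrum w, ?_⟩
  have hle : (Place.ofHeightOneSpectrum (K := K) (F := F) w).toValuationSubring ≤ V := by
    intro g hg
    rw [mem_ofHeightOneSpectrum_iff] at hg
    obtain ⟨n, d, hnd⟩ := HeightOneSpectrum.exists_primeCompl_mul_eq_of_integer _ g hg
    have hd : (d : B) ∉ P := d.2
    rw [hPmem, not_not] at hd
    have hd0 : algebraMap B F d ≠ 0 := by
      intro h
      have h2 : (⟨algebraMap B F d, hB d⟩ : V) = 0 := Subtype.ext h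
      rw [h2] at hd
      exact not_isUnit_zero hd
    have : g = algebraMap B F n * (algebraMap B F d)⁻¹ := by
      rw [← hnd, mul_assoc, mul_inv_cancel₀ hd0, mul_one]
    rw [this]
    exact mul_mem (hB n) (hunit _ hd)
  have : Ring.KrullDimLE 1 (Place.ofHeightOneSpectrum (K := K) (F := F) w).toValuationSubring :=
    Ring.KrullDimLE.mk₁' (fun _ a _ ↦ Ideal.IsPrime.isMaximal ‹_› a)
  exact ValuationSubring.eq_of_le_of_ne_top _ hle hV

end

section

variable {K F F' : Type*} [Field K] [Field F] [Algebra K F] [Field F'] [Algebra K F']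
  [Algebra F F'] [IsScalarTower K F F'] [Algebra.IsIntegral F F'] [IsFnField K F'] [CharZero K]

/-- Every place extends. -/
theorem exists_restrict_eq (v : Place K F) : ∃ w : Place K F', w.restrict F = v := by
  obtain ⟨V, hV⟩ := LocalSubring.exists_le_valuationSubring
    (v.toValuationSubring.toLocalSubring.map (algebraMap F F'))
  obtain ⟨hV1, hV2⟩ := hV
  have hmem : ∀ f ∈ v.toValuationSubring, algebraMap F F' f ∈ V := by
    intro f hf
    apply hV1
    exact ⟨f, hf, rfl⟩
  obtain ⟨t, ht0, ht⟩ := exists_ord_eq_one v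
  have htmem : t ∈ v.toValuationSubring := mem_of_ord_nonneg v (by rw [ht]; norm_num)
  have hne : V ≠ ⊤ := by
    intro htop
    have hS : algebraMap F F' t ∈ (v.toValuationSubring.toLocalSubring.map
        (algebraMap F F')).toSubring := ⟨t, htmem, rfl⟩
    have h0 : algebraMap F F' t ≠ 0 := by simpa using ht0
    have h1 : IsUnit (Subring.inclusion hV1 ⟨algebraMap F F' t, hS⟩) := by
      rw [isUnit_iff_exists_inv]
      refine ⟨⟨(algebraMap F F' t)⁻¹, ?_⟩, ?_⟩
      · rw [htop]
        exact ValuationSubring.mem_top _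
      · apply Subtype.ext
        exact mul_inv_cancel₀ h0
    have h2 := hV2.map_nonunit _ h1
    rw [isUnit_iff_exists_inv] at h2
    obtain ⟨⟨_, s, hs, rfl⟩, hb⟩ := h2
    have h3 : algebraMap F F' t * algebraMap F F' s = 1 := congrArg Subtype.val hb
    rw [← map_mul, ← map_one (algebraMap F F')] at h3
    have h4 := (algebraMap F F').injective h3
    have h5 : v.ord (t * s) = 0 := by rw [h4, v.ord_one]
    have hs0 : s ≠ 0 := right_ne_zero_of_mul_eq_one h4
    rw [v.ord_mul ht0 hs0, ht] at h5
    have h6 : 0 ≤ v.ord s := ord_nonneg_of_mem v hs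
    omega
  obtain ⟨w, hw⟩ := exists_place_of_valuationSubring (K := K) V (fun a => by
    rw [IsScalarTower.algebraMap_apply K F F']
    exact hmem _ (v.algebraMap_mem' a)) hne
  refine ⟨w, ?_⟩
  symm
  apply eq_of_le
  intro f hf
  rw [Place.mem_restrict_iff, hw]
  exact hmem f hf

end

end Fermat.Agent.FF
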