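import Fermat.Prelude.Def_AlgebraicCurve_DivisorClassGroup
import Fermat.Prelude.Def_AlgebraicCurve_IsCurveOver
import Fermat.Prelude.Def_AlgebraicCurve_Repartitions
import Mathlib.NumberTheory.RamificationInertia.Valuation
import Mathlib.RingTheory.DedekindDomain.IntegralClosure
import Mathlib.FieldTheory.IntermediateField.Adjoin.Algebra

/-!
# Places of function fields: basic facts

Elementary facts on `AlgebraicCurve.Place`, the valuation `ord` and the dictionary between places
which are nonnegative on a Dedekind domain `R` with fraction field `F` and the height one spectrum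
of `R`.
-/

set_option autoImplicit false
set_option linter.unusedSectionVars false
set_option linter.style.haveILetI false

open IsDedekindDomain WithZero IsLocalRing AlgebraicCurve

namespace Fermat.Agent.FF

variable {K F : Type*} [Field K] [Field F] [Algebra K F]

section OrdBasic

variable (v : Place K F)

theorem mem_iff {f : F} : f ∈ v.toValuationSubring ↔ f = 0 ∨ 0 ≤ v.ord f := by
  constructor
  · intro h
    exact v.adicValuation_le_one_iff.mp (v.adicValuation_le_one_of_mem h)
  · rintro (rfl | h)
    · exact v.toValuationSubring.zero_mem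
    · rcases eq_or_ne f 0 with rfl | hf
      · exact v.toValuationSubring.zero_mem
      obtain ⟨π, hπ⟩ := IsDiscreteValuationRing.exists_irreducible v.toValuationSubring
      obtain ⟨u, hu⟩ := v.exists_unit_mul_zpow hf hπ
      rw [hu]
      refine mul_mem (u : v.toValuationSubring).2 ?_
      lift v.ord f to ℕ using h with n hn
      rw [zpow_natCast]
      exact pow_mem π.2 n

theorem ord_nonneg_of_mem {f : F} (h : f ∈ v.toValuationSubring) : 0 ≤ v.ord f := by
  rcases (mem_iff v).mp h with rfl | h
  · simp
  · exact h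

theorem mem_of_ord_nonneg {f : F} (h : 0 ≤ v.ord f) : f ∈ v.toValuationSubring :=
  (mem_iff v).mpr (Or.inr h)

theorem mem_iff_ord_nonneg {f : F} : f ∈ v.toValuationSubring ↔ 0 ≤ v.ord f :=
  ⟨ord_nonneg_of_mem v, mem_of_ord_nonneg v⟩

theorem ord_algebraMap (a : K) : v.ord (algebraMap K F a) = 0 := by
  rcases eq_or_ne a 0 with rfl | ha
  · simp
  apply le_antisymm
  · have h := ord_nonneg_of_mem v (v.algebraMap_mem' a⁻¹)
    rw [map_inv₀, v.ord_inv] at h
    linarith
  · exact ord_nonneg_of_mem v (v.algebraMap_mem' a)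

theorem ord_pow (f : F) (n : ℕ) : v.ord (f ^ n) = n * v.ord f := by
  have := v.ord_zpow f n
  simpa using this

theorem ord_neg (f : F) : v.ord (-f) = v.ord f := by
  simp [Place.ord, Valuation.map_neg]

theorem le_ord_add {f g : F} {n : ℤ} (hf : f = 0 ∨ n ≤ v.ord f) (hg : g = 0 ∨ n ≤ v.ord g) :
    f + g = 0 ∨ n ≤ v.ord (f + g) := by
  have h1 : v.adicValuation f ≤ exp (-n) := by
    rw [v.adicValuation_le_exp_iff]; simpa using hf
  have h2 : v.adicValuation g ≤ exp (-n) := by
    rw [v.adicValuation_le_exp_iff]; simpa using hg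
  have h3 := (Valuation.map_add v.adicValuation f g).trans (max_le h1 h2)
  rw [v.adicValuation_le_exp_iff] at h3
  simpa using h3

theorem min_le_ord_add {f g : F} (hfg : f + g ≠ 0) :
    min (v.ord f) (v.ord g) ≤ v.ord (f + g) := by
  rcases eq_or_ne f 0 with rfl | hf
  · simp
  rcases eq_or_ne g 0 with rfl | hg
  · simp
  exact (le_ord_add v (Or.inr (min_le_left _ _)) (Or.inr (min_le_right _ _))).resolve_left hfg

theorem ord_add_eq_of_lt {f g : F} (hf : f ≠ 0) (h : g = 0 ∨ v.ord f < v.ord g) :
    v.ord (f + g) = v.ord f := by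
  rcases h with rfl | h
  · simp
  rcases eq_or_ne g 0 with rfl | hg
  · simp
  have h1 : v.adicValuation g < v.adicValuation f := by
    rw [v.adicValuation_eq_exp_neg_ord hf, v.adicValuation_eq_exp_neg_ord hg, exp_lt_exp]
    linarith
  have h2 := Valuation.map_add_eq_of_lt_left v.adicValuation h1
  simp only [Place.ord, h2]

theorem exists_ord_eq_one : ∃ t : F, t ≠ 0 ∧ v.ord t = 1 := by
  obtain ⟨π, hπ⟩ := IsDiscreteValuationRing.exists_irreducible v.toValuationSubring
  exact ⟨π, by simpa using hπ.ne_zero, v.ord_coe_irreducible hπ⟩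

/-- elements of the maximal ideal of the valuation ring. -/
theorem coe_mem_maximalIdeal_iff (a : v.toValuationSubring) :
    a ∈ maximalIdeal v.toValuationSubring ↔ (a : F) = 0 ∨ 0 < v.ord (a : F) := by
  rw [IsLocalRing.mem_maximalIdeal, mem_nonunits_iff, ← v.adicValuation_coe_eq_one_iff]
  rcases eq_or_ne (a : F) 0 with h | h
  · simp [h]
  · have h0 := ord_nonneg_of_mem v a.2
    rw [v.adicValuation_eq_exp_neg_ord h]
    simp only [h, false_or]
    constructor
    · intro hne
      rcases h0.lt_or_eq with h1 | h1
      · exact h1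
      · exact absurd (by rw [← h1]; simp) hne
    · intro hlt he
      have : exp (-v.ord (a : F)) = exp (0 : ℤ) := by simpa using he
      rw [exp_inj] at this
      omega

theorem isUnit_iff (a : v.toValuationSubring) :
    IsUnit a ↔ (a : F) ≠ 0 ∧ v.ord (a : F) = 0 := by
  have h := coe_mem_maximalIdeal_iff v a
  rw [IsLocalRing.mem_maximalIdeal, mem_nonunits_iff] at h
  rw [← not_iff_not, h]
  have h0 := ord_nonneg_of_mem v a.2
  constructor
  · rintro (h | h)
    · simp [h]
    · intro h'; omega
  · intro h'
    by_cases ha : (a : F) = 0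
    · exact Or.inl ha
    · right
      rcases h0.lt_or_eq with h1 | h1
      · exact h1
      · exact absurd ⟨ha, h1.symm⟩ h'

/-- A place is determined by an inclusion of valuation rings. -/
theorem eq_of_le {v w : Place K F} (h : v.toValuationSubring ≤ w.toValuationSubring) : v = w := by
  apply Place.ext
  have : Ring.KrullDimLE 1 v.toValuationSubring :=
    Ring.KrullDimLE.mk₁' (fun _ a _ ↦ Ideal.IsPrime.isMaximal ‹_› a)
  exact ValuationSubring.eq_of_le_of_ne_top _ h w.ne_top'

end OrdBasic

section HeightOne

variable {R : Type*} [CommRing R] [IsDedekindDomain R] [Algebra R F] [IsFractionRing R F]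
  [Algebra K R] [IsScalarTower K R F]

theorem mem_ofHeightOneSpectrum_iff (w : HeightOneSpectrum R) {f : F} :
    f ∈ (Place.ofHeightOneSpectrum (K := K) (F := F) w).toValuationSubring ↔
      w.valuation F f ≤ 1 := by
  rw [Place.ofHeightOneSpectrum_toValuationSubring, Valuation.mem_valuationSubring_iff]

/-- The normalized valuation of the place attached to `w` is the `w`-adic valuation. -/
theorem adicValuation_ofHeightOneSpectrum (w : HeightOneSpectrum R) (f : F) :
    (Place.ofHeightOneSpectrum (K := K) (F := F) w).adicValuation f = w.valuation F f := by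
  set v := Place.ofHeightOneSpectrum (K := K) (F := F) w with hv
  -- a unit has valuation one
  have hunit : ∀ u : v.toValuationSubringˣ,
      w.valuation F ((u : v.toValuationSubring) : F) = 1 := by
    intro u
    apply le_antisymm
    · exact (mem_ofHeightOneSpectrum_iff (K := K) w).mp (u : v.toValuationSubring).2
    · have h1 := (mem_ofHeightOneSpectrum_iff (K := K) w).mp
        ((u⁻¹ : v.toValuationSubringˣ) : v.toValuationSubring).2
      have h2 : w.valuation F ((u : v.toValuationSubring) : F) *
          w.valuation F (((u⁻¹ : v.toValuationSubringˣ) : v.toValuationSubring) : F) = 1 := by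
        rw [← map_mul]
        have : ((u : v.toValuationSubring) : F) *
            (((u⁻¹ : v.toValuationSubringˣ) : v.toValuationSubring) : F) = 1 := by
          exact_mod_cast congrArg Subtype.val (u.mul_inv)
        rw [this, map_one]
      calc (1 : ℤᵐ⁰) = _ := h2.symm
        _ ≤ w.valuation F ((u : v.toValuationSubring) : F) * 1 := by gcongr
        _ = _ := mul_one _
  obtain ⟨π, hπ⟩ := w.valuation_exists_uniformizer F
  have hπ0 : π ≠ 0 := by
    rintro rfl
    rw [map_zero] at hπ
    exact exp_ne_zero hπ.symm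
  have hπmem : π ∈ v.toValuationSubring := by
    rw [mem_ofHeightOneSpectrum_iff, hπ]
    exact_mod_cast (exp_le_exp.mpr (by norm_num : (-1 : ℤ) ≤ 0))
  -- the uniformizer is irreducible in the valuation ring
  obtain ⟨ϖ, hϖ⟩ := IsDiscreteValuationRing.exists_irreducible v.toValuationSubring
  obtain ⟨u, hu⟩ := v.exists_unit_mul_zpow hπ0 hϖ
  have hϖ0 : (ϖ : F) ≠ 0 := by simpa using hϖ.ne_zero
  have hval : w.valuation F π = (w.valuation F (ϖ : F)) ^ (v.ord π) := by
    conv_lhs => rw [hu]
    rw [map_mul, hunit, one_mul, map_zpow₀]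
  have hϖv : w.valuation F (ϖ : F) = exp (-1 : ℤ) := by
    have h0 : w.valuation F (ϖ : F) ≠ 0 := (Valuation.ne_zero_iff _).mpr hϖ0
    obtain ⟨m, hm⟩ : ∃ m : ℤ, w.valuation F (ϖ : F) = exp m := ⟨log _, (exp_log h0).symm⟩
    have h1 : w.valuation F (ϖ : F) ≤ 1 := (mem_ofHeightOneSpectrum_iff (K := K) w).mp ϖ.2
    rw [hπ, hm, ← exp_zsmul, exp_inj, smul_eq_mul] at hval
    have hm0 : m ≤ 0 := by
      rw [hm, ← exp_zero, exp_le_exp] at h1
      exact h1
    have hord : 0 ≤ v.ord π := ord_nonneg_of_mem v hπmem
    rw [hm]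
    congr 1
    rcases Int.eq_one_or_neg_one_of_mul_eq_neg_one hval.symm with h | h
    · rw [h] at hval; omega
    · omega
  rcases eq_or_ne f 0 with rfl | hf
  · simp
  obtain ⟨u', hu'⟩ := v.exists_unit_mul_zpow hf hϖ
  rw [v.adicValuation_eq_exp_neg_ord hf]
  conv_rhs => rw [hu']
  rw [map_mul, hunit, one_mul, map_zpow₀, hϖv, ← exp_zsmul, smul_eq_mul]
  congr 1
  ring

theorem ord_ofHeightOneSpectrum (w : HeightOneSpectrum R) (f : F) :
    (Place.ofHeightOneSpectrum (K := K) (F := F) w).ord f = -log (w.valuation F f) := by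
  rw [Place.ord, adicValuation_ofHeightOneSpectrum]

theorem ofHeightOneSpectrum_injective :
    Function.Injective (Place.ofHeightOneSpectrum (K := K) (F := F) (R := R)) := by
  intro w w' h
  apply HeightOneSpectrum.eq_of_valuation_isEquiv_valuation (K := F)
  have : w.valuation F = w'.valuation F := by
    ext f
    rw [← adicValuation_ofHeightOneSpectrum (K := K) w, h, adicValuation_ofHeightOneSpectrum]
  rw [this]

theorem algebraMap_mem_ofHeightOneSpectrum (w : HeightOneSpectrum R) (r : R) :
    algebraMap R F r ∈ (Place.ofHeightOneSpectrum (K := K) (F := F) w).toValuationSubring := by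
  rw [mem_ofHeightOneSpectrum_iff]
  exact w.valuation_le_one r

/-- `R` sits inside the valuation ring of `v`: the centre of `v` on `R`. -/
noncomputable def centre (v : Place K F) (h : ∀ r : R, algebraMap R F r ∈ v.toValuationSubring) :
    Ideal R :=
  (maximalIdeal v.toValuationSubring).comap
    ((algebraMap R F).codRestrict v.toValuationSubring.toSubring h)

theorem mem_centre_iff (v : Place K F) (h : ∀ r : R, algebraMap R F r ∈ v.toValuationSubring)
    (r : R) : r ∈ centre v h ↔ r = 0 ∨ 0 < v.ord (algebraMap R F r) := by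
  rw [centre, Ideal.mem_comap, coe_mem_maximalIdeal_iff]
  simp

/-- Every place which is nonnegative on `R` comes from a height one prime. -/
theorem exists_heightOneSpectrum (v : Place K F)
    (h : ∀ r : R, algebraMap R F r ∈ v.toValuationSubring) :
    ∃ w : HeightOneSpectrum R, Place.ofHeightOneSpectrum w = v ∧ w.asIdeal = centre v h := by
  have hprime : (centre v h).IsPrime := Ideal.IsPrime.comap _
  have hne : centre v h ≠ ⊥ := by
    intro hbot
    apply v.ne_top'
    rw [eq_top_iff]
    intro f _
    obtain ⟨a, b, hb, rfl⟩ := IsFractionRing.div_surjective (A := R) f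
    have hb0 : b ≠ 0 := nonZeroDivisors.ne_zero hb
    have hbmem : b ∉ centre v h := by
      rw [hbot]; simpa using hb0
    rw [mem_centre_iff, not_or, not_lt] at hbmem
    have hb1 : v.ord (algebraMap R F b) = 0 :=
      le_antisymm hbmem.2 (ord_nonneg_of_mem v (h b))
    rw [div_eq_mul_inv]
    refine mul_mem (h a) ?_
    apply mem_of_ord_nonneg
    rw [v.ord_inv, hb1, neg_zero]
  refine ⟨⟨centre v h, hprime, hne⟩, ?_, rfl⟩
  apply eq_of_le
  intro f hf
  rw [mem_ofHeightOneSpectrum_iff] at hf
  obtain ⟨n, d, hnd⟩ := HeightOneSpectrum.exists_primeCompl_mul_eq_of_integer _ f hf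
  have hd : (d : R) ∉ centre v h := d.2
  rw [mem_centre_iff, not_or, not_lt] at hd
  have hd1 : v.ord (algebraMap R F d) = 0 :=
    le_antisymm hd.2 (ord_nonneg_of_mem v (h d))
  have hd0 : algebraMap R F d ≠ 0 := by
    simpa using hd.1
  have : f = algebraMap R F n * (algebraMap R F d)⁻¹ := by
    rw [← hnd, mul_assoc, mul_inv_cancel₀ hd0, mul_one]
  rw [this]
  refine mul_mem (h n) ?_
  apply mem_of_ord_nonneg
  rw [v.ord_inv, hd1, neg_zero]

end HeightOne

end Fermat.Agent.FF
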