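import Fermat.Agent.FF.Canonical

/-!
# The Riemann–Hurwitz formula over the projective line
-/

set_option autoImplicit false
set_option linter.unusedSectionVars false
set_option linter.style.haveILetI false

open IsDedekindDomain WithZero IsLocalRing AlgebraicCurve IntermediateField KaehlerDifferential
open scoped IntermediateField.algebraAdjoinAdjoin TensorProduct

namespace Fermat.Agent.FF

variable {K F : Type*} [Field K] [Field F] [Algebra K F]

theorem adjoin_simple_sub (x : F) (a : K) : K⟮x - algebraMap K F a⟯ = K⟮x⟯ := by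
  apply le_antisymm
  · rw [IntermediateField.adjoin_simple_le_iff]
    exact sub_mem (IntermediateField.mem_adjoin_simple_self K x) (IntermediateField.algebraMap_mem _ a)
  · rw [IntermediateField.adjoin_simple_le_iff]
    have := add_mem (IntermediateField.mem_adjoin_simple_self K (x - algebraMap K F a))
      (IntermediateField.algebraMap_mem K⟮x - algebraMap K F a⟯ a)
    rwa [sub_add_cancel] at this

theorem transcendental_sub {x : F} (hx : Transcendental K x) (a : K) :
    Transcendental K (x - algebraMap K F a) := by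
  intro h
  apply hx
  have := h.add (isAlgebraic_algebraMap (R := K) (A := F) a)
  rwa [sub_add_cancel] at this

section

variable [IsFnField K F] [CharZero K] [IsAlgClosed K]

theorem sum_zeros_ord {x : F} (hx : Transcendental K x) :
    ∑ᶠ v ∈ zeros (K := K) x, v.ord x = Module.finrank K⟮x⟯ F := by
  rw [← sum_zeros_fnField hx]
  refine finsum_mem_congr rfl fun v _ => ?_
  rw [deg_eq_one v]
  simp

theorem finsum_mem_one_eq {s : Set (Place K F)} (hs : s.Finite) :
    ∑ᶠ v ∈ s, (1 : ℤ) = s.ncard := by
  rw [finsum_mem_eq_finite_toFinset_sum _ hs, Set.ncard_eq_toFinset_card s hs]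
  simp

theorem degree_of_dx {x : F} (hx : Transcendental K x) (S : Finset K)
    (hS : ∀ a ∉ S, ∀ v : Place K F, 0 < v.ord (x - algebraMap K F a) →
      v.ord (x - algebraMap K F a) = 1)
    {E : Divisor K F} (hE : ∀ v, E v = v.ordDifferential (D K F x)) :
    Divisor.degree E = ((S.card : ℤ) - 1) * Module.finrank K⟮x⟯ F -
      ∑ a ∈ S, ((zeros (K := K) (x - algebraMap K F a)).ncard : ℤ) -
      (zeros (K := K) x⁻¹).ncard := by
  classical
  have hpole : ∀ v ∈ zeros (K := K) x⁻¹, v.ordDifferential (D K F x) = - v.ord x⁻¹ - 1 := by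
    intro v hv
    change 0 < v.ord x⁻¹ at hv
    rw [v.ord_inv] at hv ⊢
    rw [ordDifferential_D v (by omega), neg_neg]
  have hzero : ∀ a : K, ∀ v ∈ zeros (K := K) (x - algebraMap K F a),
      v.ordDifferential (D K F x) = v.ord (x - algebraMap K F a) - 1 := by
    intro a v hv
    change 0 < v.ord _ at hv
    rw [← D_sub_algebraMap x a, ordDifferential_D v (by omega)]
  have hdisj : (S : Set K).PairwiseDisjoint
      (fun a => zeros (K := K) (x - algebraMap K F a)) := by
    intro a _ b _ hab
    rw [Function.onFun, Set.disjoint_left]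
    intro v hv hv'
    change 0 < v.ord _ at hv
    change 0 < v.ord _ at hv'
    have h1 : x - algebraMap K F b = (x - algebraMap K F a) + algebraMap K F (a - b) := by
      rw [map_sub]; ring
    have h2 : v.ord (x - algebraMap K F b) = 0 := by
      rw [h1, add_comm, ord_add_eq_of_lt v, ord_algebraMap]
      · rw [ne_eq, map_eq_zero_iff _ (algebraMap K F).injective, sub_eq_zero]
        exact hab
      · right
        rw [ord_algebraMap]
        exact hv
    omega
  have hdisj2 : Disjoint (⋃ a ∈ S, zeros (K := K) (x - algebraMap K F a))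
      (zeros (K := K) x⁻¹) := by
    rw [Set.disjoint_left]
    intro v hv hv'
    simp only [Set.mem_iUnion] at hv
    obtain ⟨a, _, hv⟩ := hv
    change 0 < v.ord _ at hv
    change 0 < v.ord _ at hv'
    rw [v.ord_inv] at hv'
    have h3 : x - algebraMap K F a = x + (- algebraMap K F a) := sub_eq_add_neg _ _
    rw [h3, ord_add_eq_of_lt v (transcendental_ne_zero hx)] at hv
    · omega
    · right
      rw [ord_neg, ord_algebraMap]
      omega
  have hsupp : (Function.support fun v : Place K F => E v * (v.deg : ℤ)) ⊆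
      (⋃ a ∈ S, zeros (K := K) (x - algebraMap K F a)) ∪ zeros (K := K) x⁻¹ := by
    intro v hv
    simp only [Function.mem_support, ne_eq, mul_eq_zero, not_or] at hv
    have hv1 := hv.1
    rw [hE] at hv1
    by_cases hp : 0 < v.ord x⁻¹
    · right; exact hp
    left
    rw [v.ord_inv] at hp
    obtain ⟨a, ha⟩ := exists_value v (x := x) (by omega)
    rcases ha with ha | ha
    · exact absurd ha (transcendental_ne_zero (transcendental_sub hx a))
    · simp only [Set.mem_iUnion]
      refine ⟨a, ?_, ha⟩
      by_contra haS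
      apply hv1
      rw [hzero a v ha, hS a haS v ha]
      norm_num
  have hfin1 : ∀ a : K, (zeros (K := K) (x - algebraMap K F a)).Finite := fun a =>
    finite_zeros_of_fnField _
  have hfin2 : (zeros (K := K) x⁻¹).Finite := finite_zeros_of_fnField _
  have hfin3 : (⋃ a ∈ S, zeros (K := K) (x - algebraMap K F a)).Finite :=
    S.finite_toSet.biUnion fun a _ => hfin1 a
  rw [degree_eq_finsum]
  have h2 : ∑ᶠ v ∈ (⋃ a ∈ S, zeros (K := K) (x - algebraMap K F a)) ∪ zeros (K := K) x⁻¹,
      E v * (v.deg : ℤ) = ∑ᶠ v, E v * (v.deg : ℤ) := by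
    rw [← finsum_mem_inter_support, Set.inter_eq_right.mpr hsupp, finsum_mem_support]
  rw [← h2, finsum_mem_union hdisj2 hfin3 hfin2]
  have h3 : ∑ᶠ v ∈ zeros (K := K) x⁻¹, E v * (v.deg : ℤ) =
      - (Module.finrank K⟮x⟯ F : ℤ) - (zeros (K := K) x⁻¹).ncard := by
    have h4 : ∑ᶠ v ∈ zeros (K := K) x⁻¹, E v * (v.deg : ℤ) =
        ∑ᶠ v ∈ zeros (K := K) x⁻¹, (- v.ord x⁻¹ - 1) := by
      refine finsum_mem_congr rfl fun v hv => ?_
      rw [hE, hpole v hv, deg_eq_one v]
      simp
    rw [h4, finsum_mem_sub_distrib _ _ hfin2, finsum_mem_neg_distrib _ hfin2,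
      sum_zeros_ord (transcendental_inv hx), adjoin_simple_inv, finsum_mem_one_eq hfin2]
  have h5 : ∑ᶠ v ∈ ⋃ a ∈ S, zeros (K := K) (x - algebraMap K F a), E v * (v.deg : ℤ) =
      ∑ a ∈ S, ((Module.finrank K⟮x⟯ F : ℤ) -
        (zeros (K := K) (x - algebraMap K F a)).ncard) := by
    have h6 := finsum_mem_biUnion (f := fun v : Place K F => E v * (v.deg : ℤ)) hdisj
      S.finite_toSet (fun a _ => hfin1 a)
    simp only [Finset.mem_coe] at h6
    rw [h6, finsum_mem_finset_eq_sum]
    refine Finset.sum_congr rfl fun a _ => ?_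
    have h4 : ∑ᶠ v ∈ zeros (K := K) (x - algebraMap K F a), E v * (v.deg : ℤ) =
        ∑ᶠ v ∈ zeros (K := K) (x - algebraMap K F a), (v.ord (x - algebraMap K F a) - 1) := by
      refine finsum_mem_congr rfl fun v hv => ?_
      rw [hE, hzero a v hv, deg_eq_one v]
      simp
    rw [h4, finsum_mem_sub_distrib _ _ (hfin1 a), sum_zeros_ord (transcendental_sub hx a),
      adjoin_simple_sub, finsum_mem_one_eq (hfin1 a)]
  rw [h3, h5, Finset.sum_sub_distrib]
  simp only [Finset.sum_const, nsmul_eq_mul]
  ring

/-- Riemann–Hurwitz: degree of the canonical divisor in terms of the places over the branch points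
of the function `x`. -/
theorem degree_canonical {x : F} (hx : Transcendental K x) (S : Finset K)
    (hS : ∀ a ∉ S, ∀ v : Place K F, 0 < v.ord (x - algebraMap K F a) →
      v.ord (x - algebraMap K F a) = 1)
    {ω : Ω[F⁄K]} (hω : ω ≠ 0)
    {E : Divisor K F} (hE : ∀ v, E v = v.ordDifferential ω) :
    Divisor.degree E = ((S.card : ℤ) - 1) * Module.finrank K⟮x⟯ F -
      ∑ a ∈ S, ((zeros (K := K) (x - algebraMap K F a)).ncard : ℤ) -
      (zeros (K := K) x⁻¹).ncard := by
  obtain ⟨f, rfl⟩ := exists_smul_D_fnField hx ω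
  have hf : f ≠ 0 := by
    rintro rfl
    exact hω (zero_smul _ _)
  rw [← degree_of_dx hx S hS (E := E - divOf f) ?_, map_sub, degree_divOf, sub_zero]
  intro v
  rw [Finsupp.sub_apply, hE, divOf_apply, ordDifferential_smul' v hf (D_ne_zero_fnField hx)]
  ring

theorem genus_eq [HasCanonicalDivisor (K := K) (F := F)] {x : F} (hx : Transcendental K x)
    (S : Finset K)
    (hS : ∀ a ∉ S, ∀ v : Place K F, 0 < v.ord (x - algebraMap K F a) →
      v.ord (x - algebraMap K F a) = 1) :
    genus K F = (((S.card : ℤ) - 1) * Module.finrank K⟮x⟯ F -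
      ∑ a ∈ S, ((zeros (K := K) (x - algebraMap K F a)).ncard : ℤ) -
      (zeros (K := K) x⁻¹).ncard + 2).toNat / 2 := by
  have h : ∃ ω : Ω[F⁄K], ω ≠ 0 := ⟨D K F x, D_ne_zero_fnField hx⟩
  rw [genus, dif_pos h]
  rw [degree_canonical hx S hS h.choose_spec (canonicalDivisorOf_apply h.choose_spec)]

end

end Fermat.Agent.FF
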