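import Fermat.Agent.FF.Valuations
import Fermat.Agent.FF.RH
import Mathlib.FieldTheory.Galois.IsGaloisGroup

/-!
# Galois action on places and counting of places in fixed fields
-/

set_option autoImplicit false
set_option linter.unusedSectionVars false
set_option linter.style.haveILetI false

open IsDedekindDomain WithZero IsLocalRing AlgebraicCurve IntermediateField
open scoped IntermediateField.algebraAdjoinAdjoin Pointwise

namespace Fermat.Agent.FF

section Prelim

variable {K F : Type*} [Field K] [Field F] [Algebra K F]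

theorem ord_prod (v : Place K F) {ι : Type*} (s : Finset ι) (f : ι → F)
    (hf : ∀ i ∈ s, f i ≠ 0) : v.ord (∏ i ∈ s, f i) = ∑ i ∈ s, v.ord (f i) := by
  classical
  induction s using Finset.induction_on with
  | empty => simp
  | insert a s ha ih =>
    rw [Finset.prod_insert ha, Finset.sum_insert ha, v.ord_mul, ih]
    · intro i hi
      exact hf i (Finset.mem_insert_of_mem hi)
    · exact hf a (Finset.mem_insert_self _ _)
    · exact Finset.prod_ne_zero_iff.mpr fun i hi => hf i (Finset.mem_insert_of_mem hi)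

theorem eq_of_centre_le {R : Type*} [CommRing R] [IsDedekindDomain R] [Algebra R F]
    [IsFractionRing R F] [Algebra K R] [IsScalarTower K R F] {v w : Place K F}
    (hv : ∀ r : R, algebraMap R F r ∈ v.toValuationSubring)
    (hw : ∀ r : R, algebraMap R F r ∈ w.toValuationSubring)
    (hle : centre v hv ≤ centre w hw) : v = w := by
  obtain ⟨p, hp, hpc⟩ := exists_heightOneSpectrum v hv
  obtain ⟨q, hq, hqc⟩ := exists_heightOneSpectrum w hw
  have h1 : p = q := by
    apply HeightOneSpectrum.ext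
    rw [← hpc, ← hqc] at hle
    exact p.isMaximal.eq_of_le q.isPrime.ne_top hle
  rw [← hp, ← hq, h1]

theorem intClosure_mem_of_ord_nonneg {x : F} (v : Place K F) (hv : 0 ≤ v.ord x)
    (b : integralClosure (Algebra.adjoin K {x}) F) :
    algebraMap (integralClosure (Algebra.adjoin K {x}) F) F b ∈ v.toValuationSubring := by
  have hA := adjoin_mem_of_ord_nonneg v hv
  have hb : IsIntegral (Algebra.adjoin K {x})
    (algebraMap (integralClosure (Algebra.adjoin K {x}) F) F b) := b.2
  letI : Algebra (Algebra.adjoin K {x}) v.toValuationSubring :=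
    ((algebraMap (Algebra.adjoin K {x}) F).codRestrict v.toValuationSubring.toSubring hA).toAlgebra
  haveI : IsScalarTower (Algebra.adjoin K {x}) v.toValuationSubring F :=
    IsScalarTower.of_algebraMap_eq fun _ => rfl
  have hb'' : IsIntegral v.toValuationSubring
    (algebraMap (integralClosure (Algebra.adjoin K {x}) F) F b) := hb.tower_top
  obtain ⟨y, hy⟩ := IsIntegrallyClosed.isIntegral_iff.mp hb''
  rw [← hy]
  exact y.2

theorem ord_apply_eq (v : Place K F) (σ : F ≃ₐ[K] F) (y : F) :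
    v.ord (σ y) = (σ⁻¹ • v).ord y := by
  rw [← Place.ord_smul σ (σ⁻¹ • v) y, smul_inv_smul]

/-- The rational function field has exactly one place with `v(x) > 0`. -/
theorem eq_of_ord_gen_pos {x : F} (hx : Transcendental K x) {v w : Place K K⟮x⟯}
    (hv : 0 < v.ord (AdjoinSimple.gen K x)) (hw : 0 < w.ord (AdjoinSimple.gen K x)) : v = w := by
  have hmem : ∀ u : Place K K⟮x⟯, 0 < u.ord (AdjoinSimple.gen K x) →
      ∀ a : Algebra.adjoin K {x}, algebraMap _ K⟮x⟯ a ∈ u.toValuationSubring := by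
    intro u hu a
    obtain ⟨p, hp⟩ := exists_poly x a
    have h1 : a = Polynomial.aeval (gen x : Algebra.adjoin K {x}) p := by
      apply Subtype.ext
      rw [hp, Polynomial.aeval_def, Polynomial.aeval_def]
      rw [Polynomial.eval₂_eq_sum_range, Polynomial.eval₂_eq_sum_range]
      push_cast
      rfl
    have h2 : algebraMap _ K⟮x⟯ a = Polynomial.aeval (AdjoinSimple.gen K x) p := by
      rw [h1, ← Polynomial.aeval_algebraMap_apply]
      rfl
    rw [h2, Polynomial.aeval_eq_sum_range]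
    refine sum_mem fun i _ => ?_
    rw [Algebra.smul_def]
    exact mul_mem (u.algebraMap_mem' _) (pow_mem (mem_of_ord_nonneg u hu.le) i)
  have hcentre : ∀ (u : Place K K⟮x⟯) (hu : 0 < u.ord (AdjoinSimple.gen K x)),
      centre u (hmem u hu) = Ideal.span {(gen x : Algebra.adjoin K {x})} := by
    intro u hu
    haveI := isMaximal_span_gen hx
    symm
    apply Ideal.IsMaximal.eq_of_le inferInstance
    · exact Ideal.IsPrime.ne_top (Ideal.IsPrime.comap _)
    · rw [Ideal.span_singleton_le_iff_mem, mem_centre_iff]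
      exact Or.inr hu
  apply eq_of_centre_le (hmem v hv) (hmem w hw)
  rw [hcentre v hv, hcentre w hw]

end Prelim

section Transitive

variable {K L : Type*} [Field K] [Field L] [Algebra K L] [IsFnField K L] [CharZero K]
variable {𝒢 : Type*} [Group 𝒢] (φ : 𝒢 →* (L ≃ₐ[K] L)) [Finite φ.range]

/-- Transitivity of a finite group on the places with the same restriction to the field of
invariants. -/
theorem exists_smul_eq {x : L} (hx : Transcendental K x) (hfix : ∀ g, φ g x = x)
    {w₁ w₂ : Place K L} (h₁ : 0 < w₁.ord x) (h₂ : 0 < w₂.ord x)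
    (H : ∀ y, (∀ g, φ g y = y) → 0 < w₁.ord y → 0 < w₂.ord y) :
    ∃ g, φ g • w₂ = w₁ := by
  classical
  haveI := IsFnField.finiteDimensional hx
  haveI : CharZero K⟮x⟯ := charZero_of_injective_algebraMap (algebraMap K K⟮x⟯).injective
  haveI : Fintype φ.range := Fintype.ofFinite _
  have hsm : ∀ (σ : φ.range) (w : Place K L), 0 < w.ord x → 0 < ((σ : L ≃ₐ[K] L) • w).ord x := by
    rintro ⟨_, g, rfl⟩ w hw
    have := Place.ord_smul (φ g) w x
    rw [hfix g] at this
    rw [this]
    exact hw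
  have hB : ∀ (w : Place K L), 0 < w.ord x →
      ∀ b : integralClosure (Algebra.adjoin K {x}) L, algebraMap _ L b ∈ w.toValuationSubring :=
    fun w hw => intClosure_mem_of_ord_nonneg w hw.le
  suffices h : ∃ σ ∈ (Finset.univ : Finset φ.range), centre w₁ (hB w₁ h₁) ≤
      centre ((σ : L ≃ₐ[K] L) • w₂) (hB _ (hsm σ w₂ h₂)) by
    obtain ⟨⟨_, g, rfl⟩, -, h⟩ := h
    exact ⟨g, (eq_of_centre_le _ _ h).symm⟩
  let f : φ.range → Ideal (integralClosure (Algebra.adjoin K {x}) L) := fun σ =>
    centre ((σ : L ≃ₐ[K] L) • w₂) (hB _ (hsm σ w₂ h₂))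
  refine (Ideal.subset_union_prime (s := (Finset.univ : Finset φ.range)) (f := f) 1 1
    (fun σ _ _ _ => Ideal.IsPrime.comap _)).mp ?_
  intro b hb
  by_contra hcon
  simp only [Finset.coe_univ, Set.mem_univ, Set.iUnion_true, Set.mem_iUnion, SetLike.mem_coe,
    not_exists] at hcon
  have hb0 : b ≠ 0 := by
    rintro rfl
    exact hcon 1 (Ideal.zero_mem _)
  have hb0' : (algebraMap (integralClosure (Algebra.adjoin K {x}) L) L b) ≠ 0 := by
    simpa using hb0
  set y : L := algebraMap _ L b with hy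
  have hy1 : 0 < w₁.ord y := by
    rw [SetLike.mem_coe, mem_centre_iff] at hb
    exact hb.resolve_left hb0
  have hyn : ∀ (w : Place K L), 0 < w.ord x → 0 ≤ w.ord y := fun w hw =>
    ord_nonneg_of_mem w (hB w hw b)
  have hy2 : ∀ σ : φ.range, ((σ : L ≃ₐ[K] L) • w₂).ord y = 0 := by
    intro σ
    have h := hcon σ
    rw [mem_centre_iff, not_or, not_lt] at h
    exact le_antisymm h.2 (hyn _ (hsm σ w₂ h₂))
  let z : L := ∏ σ : φ.range, (σ : L ≃ₐ[K] L) y
  have hzne : ∀ σ ∈ (Finset.univ : Finset φ.range), (σ : L ≃ₐ[K] L) y ≠ 0 := by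
    intro σ _
    simpa using hb0'
  have hzfix : ∀ g, φ g z = z := by
    intro g
    change φ g (∏ σ : φ.range, (σ : L ≃ₐ[K] L) y) = ∏ σ : φ.range, (σ : L ≃ₐ[K] L) y
    rw [map_prod]
    refine Fintype.prod_equiv (Equiv.mulLeft (⟨φ g, g, rfl⟩ : φ.range)) _ _ fun σ => ?_
    rfl
  have hz1 : 0 < w₁.ord z := by
    change 0 < w₁.ord (∏ σ : φ.range, (σ : L ≃ₐ[K] L) y)
    rw [ord_prod _ _ _ hzne]
    apply Finset.sum_pos'
    · intro σ _
      rw [ord_apply_eq]
      apply hyn
      exact hsm σ⁻¹ w₁ h₁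
    · exact ⟨1, Finset.mem_univ _, hy1⟩
  have hz2 := H z hzfix hz1
  have hz3 : w₂.ord z = 0 := by
    change w₂.ord (∏ σ : φ.range, (σ : L ≃ₐ[K] L) y) = 0
    rw [ord_prod _ _ _ hzne]
    apply Finset.sum_eq_zero
    intro σ _
    rw [ord_apply_eq]
    exact hy2 σ⁻¹
  omega

/-- Transitivity on the fibres of the restriction map to the invariants. -/
theorem exists_smul_eq_of_restrict_eq {F : Type*} [Field F] [Algebra K F] [Algebra F L]
    [IsScalarTower K F L] [Algebra.IsIntegral F L]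
    (hF : ∀ y : L, (∀ g, φ g y = y) → y ∈ Set.range (algebraMap F L))
    (hF' : ∀ (g : 𝒢) (z : F), φ g (algebraMap F L z) = algebraMap F L z)
    {w₁ w₂ : Place K L} (h : w₁.restrict F = w₂.restrict F) : ∃ g, φ g • w₂ = w₁ := by
  obtain ⟨t, -, ht⟩ := exists_ord_eq_one (w₁.restrict F)
  have hkey : ∀ z : F, 0 < w₁.ord (algebraMap F L z) → 0 < w₂.ord (algebraMap F L z) := by
    intro z hz
    rw [Place.ord_restrict] at hz ⊢
    rw [← h]
    have h1 : (0 : ℤ) < w₂.ramificationIndex (F := F) := by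
      exact_mod_cast w₂.ramificationIndex_pos
    have h2 : (0 : ℤ) < w₁.ramificationIndex (F := F) := by
      exact_mod_cast w₁.ramificationIndex_pos
    exact mul_pos h1 ((mul_pos_iff_of_pos_left h2).mp hz)
  have h1 : 0 < w₁.ord (algebraMap F L t) := by
    rw [Place.ord_restrict, ht, mul_one]
    exact_mod_cast w₁.ramificationIndex_pos
  refine exists_smul_eq φ (x := algebraMap F L t)
    (transcendental_of_ord_ne_zero w₁ (by omega)) (fun g => hF' g t) h1 (hkey t h1) ?_
  intro y hy hy1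
  obtain ⟨z, rfl⟩ := hF y hy
  exact hkey z hy1

/-- Transitivity on the places over `x = 0`, when the field of invariants is `K(x)`. -/
theorem exists_smul_eq_of_zeros {x : L} (hx : Transcendental K x) (hfix : ∀ g, φ g x = x)
    (hL : ∀ y : L, (∀ g, φ g y = y) → y ∈ K⟮x⟯)
    {w₁ w₂ : Place K L} (h₁ : 0 < w₁.ord x) (h₂ : 0 < w₂.ord x) : ∃ g, φ g • w₂ = w₁ := by
  haveI := IsFnField.finiteDimensional hx
  refine exists_smul_eq φ hx hfix h₁ h₂ ?_
  intro y hy hy1
  obtain ⟨y', rfl⟩ : ∃ y' : K⟮x⟯, algebraMap K⟮x⟯ L y' = y := ⟨⟨y, hL y hy⟩, rfl⟩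
  have hx' : x = algebraMap K⟮x⟯ L (AdjoinSimple.gen K x) := rfl
  have hp : ∀ w : Place K L, (0 : ℤ) < w.ramificationIndex (F := K⟮x⟯) := fun w => by
    exact_mod_cast w.ramificationIndex_pos
  rw [hx', Place.ord_restrict] at h₁ h₂
  have h3 := eq_of_ord_gen_pos hx ((mul_pos_iff_of_pos_left (hp w₁)).mp h₁)
    ((mul_pos_iff_of_pos_left (hp w₂)).mp h₂)
  rw [Place.ord_restrict] at hy1 ⊢
  rw [← h3]
  exact mul_pos (hp w₂) ((mul_pos_iff_of_pos_left (hp w₁)).mp hy1)

omit [IsFnField K L] [CharZero K] [Finite φ.range] in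
/-- The range of `φ` is a Galois group for `L / K(x)`. -/
theorem isGaloisGroup_range {x : L} (hfix : ∀ g, φ g x = x)
    (hL : ∀ y : L, (∀ g, φ g y = y) → y ∈ K⟮x⟯) : IsGaloisGroup φ.range K⟮x⟯ L where
  faithful := inferInstance
  commutes := by
    constructor
    rintro ⟨_, g, rfl⟩ ⟨c, hc⟩ y
    have h1 : φ g c = c := by
      have h2 : K⟮x⟯ ≤ IntermediateField.fixedField φ.range := by
        rw [IntermediateField.adjoin_simple_le_iff]
        rintro ⟨_, g, rfl⟩
        exact hfix g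
      exact h2 hc ⟨φ g, g, rfl⟩
    change φ g (c • y) = c • φ g y
    rw [smul_eq_mul, smul_eq_mul, map_mul, h1]
  isInvariant := by
    constructor
    intro b hb
    exact ⟨⟨b, hL b fun g => hb ⟨φ g, g, rfl⟩⟩, rfl⟩

omit [IsFnField K L] [CharZero K] in
/-- If the field of invariants of a finite group is `K(x)`, we have a function field. -/
theorem isFnField_of_invariants {x : L} (hx : Transcendental K x) (hfix : ∀ g, φ g x = x)
    (hL : ∀ y : L, (∀ g, φ g y = y) → y ∈ K⟮x⟯) : IsFnField K L := by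
  haveI := isGaloisGroup_range φ hfix hL
  haveI : FiniteDimensional K⟮x⟯ L := IsGaloisGroup.finiteDimensional φ.range K⟮x⟯ L
  exact IsFnField.of_finiteDimensional hx

omit [IsFnField K L] [CharZero K] in
/-- The field of invariants of a subgroup of finite image. -/
theorem isIntegral_of_invariants {F : Type*} [Field F] [Algebra F L]
    (Γ : Subgroup 𝒢)
    (hF : ∀ y : L, (∀ g ∈ Γ, φ g y = y) → y ∈ Set.range (algebraMap F L)) :
    Algebra.IsIntegral F L := by
  let ψ : Γ →* (L ≃ₐ[K] L) := φ.comp Γ.subtype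
  haveI : Finite ψ.range := by
    have hle : ψ.range ≤ φ.range := by
      rintro _ ⟨g, rfl⟩
      exact ⟨g, rfl⟩
    exact Finite.of_injective _ (Subgroup.inclusion_injective hle)
  haveI : Algebra.IsInvariant F L ψ.range := by
    constructor
    intro b hb
    exact hF b fun g hg => hb ⟨φ g, ⟨g, hg⟩, rfl⟩
  exact Algebra.IsInvariant.isIntegral F L ψ.range

omit [CharZero K] in
/-- A subfield of a function field over which the latter is integral is a function field. -/
theorem isFnField_of_isIntegral {F : Type*} [Field F] [Algebra K F] [Algebra F L]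
    [IsScalarTower K F L] [Algebra.IsIntegral F L] {x : F} (hx : Transcendental K x) :
    IsFnField K F := by
  have h1 : Algebra.trdeg K F = 1 := by
    apply le_antisymm
    · have h0 := lift_trdeg_le_of_injective (IsScalarTower.toAlgHom K F L)
        (algebraMap F L).injective
      rw [(IsFnField.trdeg_eq_one : Algebra.trdeg K L = 1), Cardinal.lift_one,
        Cardinal.lift_le_one_iff] at h0
      exact h0
    · rw [Cardinal.one_le_iff_ne_zero, trdeg_ne_zero_iff]
      exact ⟨x, hx⟩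
  haveI := isAlgebraic_adjoin_of_transcendental h1 hx
  haveI : Algebra.IsAlgebraic F L := inferInstance
  haveI : Algebra.IsAlgebraic K⟮x⟯ L := Algebra.IsAlgebraic.trans K⟮x⟯ F L
  haveI : Algebra.EssFiniteType K L := IsFnField.essFinite
  haveI : Algebra.EssFiniteType K⟮x⟯ L := Algebra.EssFiniteType.of_comp K K⟮x⟯ L
  haveI : FiniteDimensional K⟮x⟯ L := finiteDimensional_of_essFiniteType
  haveI : FiniteDimensional K⟮x⟯ F := Module.Finite.of_injective
    (IsScalarTower.toAlgHom K⟮x⟯ F L).toLinearMap (algebraMap F L).injective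
  exact IsFnField.of_finiteDimensional hx

section Count

variable [IsAlgClosed K]

/-- The order of the decomposition group is the ramification index. -/
theorem natCard_stabilizer {x : L} (hx : Transcendental K x) (hfix : ∀ g, φ g x = x)
    (hL : ∀ y : L, (∀ g, φ g y = y) → y ∈ K⟮x⟯) {w : Place K L} (hw : 0 < w.ord x) :
    (Nat.card (MulAction.stabilizer φ.range w) : ℤ) = w.ord x := by
  classical
  haveI := isGaloisGroup_range φ hfix hL
  have h1 : Nat.card φ.range = Module.finrank K⟮x⟯ L := IsGaloisGroup.card_eq_finrank _ _ _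
  have h2 := sum_zeros_ord (K := K) hx
  have hmem : ∀ w' : Place K L, 0 < w'.ord x ↔ w' ∈ MulAction.orbit φ.range w := by
    intro w'
    constructor
    · intro hw'
      obtain ⟨g, hg⟩ := exists_smul_eq_of_zeros φ hx hfix hL hw' hw
      exact ⟨⟨φ g, g, rfl⟩, hg⟩
    · rintro ⟨⟨_, g, rfl⟩, rfl⟩
      change 0 < (φ g • w).ord x
      have := Place.ord_smul (φ g) w x
      rw [hfix g] at this
      rw [this]
      exact hw
  have hord : ∀ w' ∈ zeros (K := K) x, w'.ord x = w.ord x := by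
    intro w' hw'
    obtain ⟨g, hg⟩ := exists_smul_eq_of_zeros φ hx hfix hL hw' hw
    rw [← hg]
    have := Place.ord_smul (φ g) w x
    rwa [hfix g] at this
  have horb : zeros (K := K) x = MulAction.orbit φ.range w := Set.ext hmem
  have hfin : (zeros (K := K) x).Finite := finite_zeros_of_fnField x
  rw [finsum_mem_congr rfl hord, finsum_mem_eq_finite_toFinset_sum _ hfin, Finset.sum_const,
    ← Set.ncard_eq_toFinset_card _ hfin, horb, ← MulAction.index_stabilizer, ← h1,
    ← Subgroup.card_mul_index (MulAction.stabilizer φ.range w), nsmul_eq_mul] at h2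
  push_cast at h2
  have h3 : ((MulAction.stabilizer φ.range w).index : ℤ) ≠ 0 := by
    exact_mod_cast Subgroup.index_ne_zero_of_finite
  have h4 : ((MulAction.stabilizer φ.range w).index : ℤ) * w.ord x =
      ((MulAction.stabilizer φ.range w).index : ℤ) *
        Nat.card (MulAction.stabilizer φ.range w) := by
    rw [h2, mul_comm]
  exact (mul_left_cancel₀ h3 h4).symm

/-- A subgroup of the decomposition group which is large enough is the decomposition group. -/
theorem exists_mem_of_smul_eq {x : L} (hx : Transcendental K x) (hfix : ∀ g, φ g x = x)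
    (hL : ∀ y : L, (∀ g, φ g y = y) → y ∈ K⟮x⟯) {w : Place K L} (hw : 0 < w.ord x)
    (C : Subgroup 𝒢) (hC : ∀ c ∈ C, φ c • w = w) (hcard : w.ord x ≤ Nat.card (C.map φ))
    (g : 𝒢) (hg : φ g • w = w) : ∃ c ∈ C, φ c = φ g := by
  have hle : C.map φ ≤ φ.range := by
    rintro _ ⟨c, -, rfl⟩
    exact ⟨c, rfl⟩
  have h1 : (C.map φ).subgroupOf φ.range ≤ MulAction.stabilizer φ.range w := by
    rintro ⟨σ, hσ⟩ hσ2
    rw [Subgroup.mem_subgroupOf] at hσ2
    obtain ⟨c, hc, rfl⟩ := hσ2
    exact hC c hc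
  have h2 : Nat.card (MulAction.stabilizer φ.range w) ≤
      Nat.card ((C.map φ).subgroupOf φ.range) := by
    rw [Nat.card_congr (Subgroup.subgroupOfEquivOfLe hle).toEquiv]
    have := natCard_stabilizer φ hx hfix hL hw
    omega
  have h3 := Subgroup.eq_of_le_of_card_ge h1 h2
  have h4 : (⟨φ g, g, rfl⟩ : φ.range) ∈ MulAction.stabilizer φ.range w := hg
  rw [← h3, Subgroup.mem_subgroupOf] at h4
  exact h4

omit [CharZero K] [IsFnField K L] [IsAlgClosed K] [Finite φ.range] in
theorem natCard_eq_of_surjective {A B C : Type*} {f : A → B} {g : A → C}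
    (hf : Function.Surjective f) (hg : Function.Surjective g)
    (h : ∀ a b, f a = f b ↔ g a = g b) : Nat.card B = Nat.card C := by
  refine Nat.card_congr (Equiv.ofBijective (fun b => g (Function.surjInv hf b)) ⟨?_, ?_⟩)
  · intro b₁ b₂ hb
    have := (h _ _).mpr hb
    rwa [Function.surjInv_eq hf, Function.surjInv_eq hf] at this
  · intro c
    obtain ⟨a, rfl⟩ := hg c
    exact ⟨f a, (h _ _).mp (Function.surjInv_eq hf (f a))⟩

/-- **Counting places**: the places of `F = L^Γ` over `x = 0` correspond to the orbits of the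
decomposition group on `𝒢 ⧸ Γ`. -/
theorem ncard_zeros_eq {F : Type*} [Field F] [Algebra K F] [Algebra F L]
    [IsScalarTower K F L] {x : F} (hx : Transcendental K (algebraMap F L x))
    (hfix : ∀ g, φ g (algebraMap F L x) = algebraMap F L x)
    (hL : ∀ y : L, (∀ g, φ g y = y) → y ∈ K⟮algebraMap F L x⟯)
    (Γ : Subgroup 𝒢) (hker : φ.ker ≤ Γ)
    (hF : ∀ y : L, (∀ g ∈ Γ, φ g y = y) → y ∈ Set.range (algebraMap F L))
    (hF' : ∀ g ∈ Γ, ∀ z : F, φ g (algebraMap F L z) = algebraMap F L z)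
    {w : Place K L} (hw : 0 < w.ord (algebraMap F L x))
    (C : Subgroup 𝒢) (hC : ∀ c ∈ C, φ c • w = w)
    (hcard : w.ord (algebraMap F L x) ≤ Nat.card (C.map φ)) :
    (zeros (K := K) (F := F) x).ncard = Nat.card (MulAction.orbitRel.Quotient C (𝒢 ⧸ Γ)) := by
  let ψ : Γ →* (L ≃ₐ[K] L) := φ.comp Γ.subtype
  haveI : Finite ψ.range := by
    have hle : ψ.range ≤ φ.range := by
      rintro _ ⟨g, rfl⟩
      exact ⟨g, rfl⟩
    exact Finite.of_injective _ (Subgroup.inclusion_injective hle)
  haveI : Algebra.IsIntegral F L := isIntegral_of_invariants φ Γ hF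
  have hrestr : ∀ (g : 𝒢) (_ : g ∈ Γ) (w' : Place K L), (φ g • w').restrict F = w'.restrict F := by
    intro g hg w'
    ext f
    rw [Place.mem_restrict_iff, Place.mem_restrict_iff, mem_iff_ord_nonneg, mem_iff_ord_nonneg]
    have := Place.ord_smul (φ g) w' (algebraMap F L f)
    rw [hF' g hg] at this
    rw [this]
  have hpos : ∀ (w' : Place K L), 0 < w'.ord (algebraMap F L x) ↔ 0 < (w'.restrict F).ord x := by
    intro w'
    have h1 : (0 : ℤ) < w'.ramificationIndex (F := F) := by
      exact_mod_cast w'.ramificationIndex_pos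
    rw [Place.ord_restrict, mul_pos_iff_of_pos_left h1]
  have hwg : ∀ g : 𝒢, 0 < (φ g • w).ord (algebraMap F L x) := by
    intro g
    have := Place.ord_smul (φ g) w (algebraMap F L x)
    rw [hfix g] at this
    rw [this]
    exact hw
  let θ : 𝒢 → zeros (K := K) (F := F) x := fun g =>
    ⟨(φ g⁻¹ • w).restrict F, (hpos _).mp (hwg g⁻¹)⟩
  let π : 𝒢 → MulAction.orbitRel.Quotient C (𝒢 ⧸ Γ) := fun g => Quotient.mk'' (g : 𝒢 ⧸ Γ)
  have hθ : Function.Surjective θ := by
    rintro ⟨v, hv⟩
    obtain ⟨w', hw'⟩ := exists_restrict_eq (F' := L) v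
    have h1 : 0 < w'.ord (algebraMap F L x) := by
      rw [hpos, hw']
      exact hv
    obtain ⟨g, hg⟩ := exists_smul_eq_of_zeros φ hx hfix hL h1 hw
    refine ⟨g⁻¹, Subtype.ext ?_⟩
    change (φ g⁻¹⁻¹ • w).restrict F = v
    rw [inv_inv, hg, hw']
  have hπ : Function.Surjective π := by
    intro q
    induction q using Quotient.inductionOn' with
    | h q =>
      obtain ⟨g, rfl⟩ := QuotientGroup.mk_surjective q
      exact ⟨g, rfl⟩
  rw [← Nat.card_coe_set_eq]
  apply natCard_eq_of_surjective hθ hπ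
  intro a b
  have hπab : π a = π b ↔ ∃ c ∈ C, (c • (b : 𝒢 ⧸ Γ)) = (a : 𝒢 ⧸ Γ) := by
    change Quotient.mk'' _ = Quotient.mk'' _ ↔ _
    rw [Quotient.eq'', MulAction.orbitRel_apply]
    constructor
    · rintro ⟨⟨c, hc⟩, hcb⟩
      exact ⟨c, hc, hcb⟩
    · rintro ⟨c, hc, hcb⟩
      exact ⟨⟨c, hc⟩, hcb⟩
  rw [hπab]
  constructor
  · intro h
    have h1 : (φ a⁻¹ • w).restrict F = (φ b⁻¹ • w).restrict F := congrArg Subtype.val h
    obtain ⟨⟨g, hg⟩, hgw⟩ := exists_smul_eq_of_restrict_eq ψ
      (fun y hy => hF y fun g hg => hy ⟨g, hg⟩) (fun g z => hF' g g.2 z) h1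
    -- `φ g • φ b⁻¹ • w = φ a⁻¹ • w`
    have h2 : φ (a * g * b⁻¹) • w = w := by
      have h3 : φ g • φ b⁻¹ • w = φ a⁻¹ • w := hgw
      rw [map_mul, map_mul, mul_smul, mul_smul, h3, smul_smul, ← map_mul, mul_inv_cancel, map_one,
        one_smul]
    obtain ⟨c, hc, hcφ⟩ := exists_mem_of_smul_eq φ hx hfix hL hw C hC hcard _ h2
    refine ⟨c, hc, ?_⟩
    -- `c b Γ = a Γ`
    change ((c * b : 𝒢) : 𝒢 ⧸ Γ) = (a : 𝒢 ⧸ Γ)
    rw [QuotientGroup.eq]
    -- `(c b)⁻¹ a ∈ Γ`
    have h4 : c⁻¹ * (a * g * b⁻¹) ∈ φ.ker := by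
      rw [MonoidHom.mem_ker, map_mul, map_inv, hcφ, inv_mul_cancel]
    have h5 : b⁻¹ * (c⁻¹ * (a * g * b⁻¹)) * b ∈ φ.ker := by
      have := (MonoidHom.normal_ker φ).conj_mem _ h4 b⁻¹
      rwa [inv_inv] at this
    have h6 : (c * b)⁻¹ * a = (b⁻¹ * (c⁻¹ * (a * g * b⁻¹)) * b) * g⁻¹ := by group
    rw [h6]
    exact Γ.mul_mem (hker h5) (Γ.inv_mem hg)
  · rintro ⟨c, hc, hcb⟩
    apply Subtype.ext
    change (φ a⁻¹ • w).restrict F = (φ b⁻¹ • w).restrict F
    change ((c * b : 𝒢) : 𝒢 ⧸ Γ) = (a : 𝒢 ⧸ Γ) at hcb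
    rw [QuotientGroup.eq] at hcb
    -- `g := (c b)⁻¹ a ∈ Γ`
    have h1 := hrestr _ hcb (φ a⁻¹ • w)
    rw [← h1, smul_smul, ← map_mul]
    have h2 : (c * b)⁻¹ * a * a⁻¹ = b⁻¹ * c⁻¹ := by group
    rw [h2, map_mul, mul_smul, hC _ (C.inv_mem hc)]

/-- Unramified points stay unramified in subfields. -/
theorem ord_eq_one_of_mem_zeros {F : Type*} [Field F] [Algebra K F] [Algebra F L]
    [IsScalarTower K F L] [Algebra.IsIntegral F L] {x : F}
    (hx : Transcendental K (algebraMap F L x))
    (hfix : ∀ g, φ g (algebraMap F L x) = algebraMap F L x)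
    (hL : ∀ y : L, (∀ g, φ g y = y) → y ∈ K⟮algebraMap F L x⟯)
    {w : Place K L} (hw : w.ord (algebraMap F L x) = 1) (v : Place K F) (hv : 0 < v.ord x) :
    v.ord x = 1 := by
  obtain ⟨w', hw'⟩ := exists_restrict_eq (F' := L) v
  have h0 : (0 : ℤ) < w'.ramificationIndex (F := F) := by
    exact_mod_cast w'.ramificationIndex_pos
  have h2 : w'.ord (algebraMap F L x) = w'.ramificationIndex (F := F) * v.ord x := by
    rw [Place.ord_restrict, hw']
  have h1 : 0 < w'.ord (algebraMap F L x) := by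
    rw [h2]
    exact mul_pos h0 hv
  obtain ⟨g, hg⟩ := exists_smul_eq_of_zeros φ hx hfix hL h1 (w₂ := w) (by omega)
  have h3 : w'.ord (algebraMap F L x) = 1 := by
    rw [← hg, ← hw]
    have := Place.ord_smul (φ g) w (algebraMap F L x)
    rwa [hfix g] at this
  rw [h3] at h2
  exact Int.eq_one_of_mul_eq_one_left hv.le h2.symm

end Count

end Transitive

end Fermat.Agent.FF
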