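import Fermat.Agent.FF.Kaehler

/-!
# Orders of differentials
-/

set_option autoImplicit false
set_option linter.unusedSectionVars false
set_option linter.style.haveILetI false

open IsDedekindDomain WithZero IsLocalRing AlgebraicCurve IntermediateField KaehlerDifferential
open scoped IntermediateField.algebraAdjoinAdjoin TensorProduct

namespace Fermat.Agent.FF

variable {K F : Type*} [Field K] [Field F] [Algebra K F]

section Uniformizer

variable {t : F} [FiniteDimensional K⟮t⟯ F] [Algebra.IsSeparable K⟮t⟯ F] [PerfectField K]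

/-- The derivation with respect to a uniformizer preserves the valuation ring. -/
theorem exists_D_eq_smul_of_uniformizer' (v : Place K F) (htr : Transcendental K t)
    (ht : v.ord t = 1) {f : F} (hf : 0 ≤ v.ord f) :
    ∃ g : F, 0 ≤ v.ord g ∧ D K F f = g • D K F t := by
  haveI := isMaximal_span_gen htr
  have hv : v ∈ zeros (K := K) t := by
    change 0 < v.ord t
    rw [ht]; norm_num
  have hp := span_gen_ne_bot (K := K) (transcendental_ne_zero htr)
  rw [← range_overPlace_gen htr] at hv
  obtain ⟨P, rfl⟩ := hv
  haveI := P.2.1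
  haveI := P.2.2
  have hram := ord_overPlace (K := K) (F := F) (A := Algebra.adjoin K {t})
    (B := integralClosure (Algebra.adjoin K {t}) F) (gen_ne_zero (transcendental_ne_zero htr)) hp P
  rw [algebraMap_gen, ht] at hram
  have hram' : P.1.ramificationIdx (Algebra.adjoin K {t}) = 1 := by exact_mod_cast hram.symm
  have hmem := mem_of_ord_nonneg _ hf
  rw [overPlace, mem_ofHeightOneSpectrum_iff] at hmem
  obtain ⟨n, d, hnd⟩ := HeightOneSpectrum.exists_primeCompl_mul_eq_of_integer _ f hmem
  have hd0 : (d : integralClosure (Algebra.adjoin K {t}) F) ∉ P.1 := d.2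
  have hd1 : algebraMap (integralClosure (Algebra.adjoin K {t}) F) F d ≠ 0 := by
    intro h
    apply hd0
    have h2 : (d : integralClosure (Algebra.adjoin K {t}) F) = 0 := by simpa using h
    rw [h2]
    exact P.1.zero_mem
  obtain ⟨m, e, he, hme⟩ := exists_unramified_smul (K := K) (F := F) (t := t)
    (B := integralClosure (Algebra.adjoin K {t}) F) P.1 hram' n d hd0
  refine ⟨algebraMap _ F m / algebraMap _ F e, ?_, ?_⟩
  · apply ord_nonneg_of_mem
    rw [overPlace, mem_ofHeightOneSpectrum_iff, map_div₀]
    have h1 : (overPrime hp P).valuation F (algebraMap _ F e) = 1 :=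
      (overPrime hp P).valuation_eq_one_iff_notMem.mpr he
    rw [h1, div_one]
    exact (overPrime hp P).valuation_le_one m
  · rw [← hme]
    congr 1
    rw [eq_div_iff hd1, ← hnd]

end Uniformizer

section Main

variable [IsFnField K F] [CharZero K]

theorem exists_D_eq_smul_of_uniformizer (v : Place K F) {t : F} (ht : v.ord t = 1) {f : F}
    (hf : 0 ≤ v.ord f) : ∃ g : F, 0 ≤ v.ord g ∧ D K F f = g • D K F t := by
  have htr : Transcendental K t := transcendental_of_ord_ne_zero v (by rw [ht]; norm_num)
  haveI := IsFnField.finiteDimensional htr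
  haveI : CharZero K⟮t⟯ := charZero_of_injective_algebraMap (algebraMap K K⟮t⟯).injective
  exact exists_D_eq_smul_of_uniformizer' v htr ht hf

theorem exists_smul_D_fnField {t : F} (htr : Transcendental K t) (ω : Ω[F⁄K]) :
    ∃ f : F, ω = f • D K F t := by
  haveI := IsFnField.finiteDimensional htr
  haveI : CharZero K⟮t⟯ := charZero_of_injective_algebraMap (algebraMap K K⟮t⟯).injective
  exact exists_smul_D ω

theorem D_ne_zero_fnField {t : F} (htr : Transcendental K t) : D K F t ≠ 0 := by
  haveI := IsFnField.finiteDimensional htr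
  haveI : CharZero K⟮t⟯ := charZero_of_injective_algebraMap (algebraMap K K⟮t⟯).injective
  exact D_ne_zero htr

variable (K F) in
theorem exists_transcendental : ∃ x : F, Transcendental K x := by
  by_contra h
  push Not at h
  have h1 : Algebra.IsAlgebraic K F := ⟨fun x => by
    have := h x
    simpa [Transcendental] using this⟩
  have h2 := (IsFnField.trdeg_eq_one : Algebra.trdeg K F = 1)
  rw [trdeg_eq_zero] at h2
  exact zero_ne_one h2

variable (K F) in
theorem nontrivial_kaehler : Nontrivial Ω[F⁄K] := by
  obtain ⟨x, hx⟩ := exists_transcendental K F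
  exact ⟨⟨D K F x, 0, D_ne_zero_fnField hx⟩⟩

variable (K F) in
theorem finrank_kaehler : Module.finrank F Ω[F⁄K] = 1 := by
  obtain ⟨x, hx⟩ := exists_transcendental K F
  apply finrank_eq_one (D K F x) (D_ne_zero_fnField hx)
  intro ω
  obtain ⟨f, hf⟩ := exists_smul_D_fnField hx ω
  exact ⟨f, hf.symm⟩

variable (K F) in
/-- Function fields of one variable are curves in the sense of the Prelude. -/
theorem isCurveOver : IsCurveOver K F where
  toHasPrincipalDivisors := hasPrincipalDivisors K F
  finiteResidue := finite_residueField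
  kaehler_free_rank_one := ⟨inferInstance, finrank_kaehler K F⟩

theorem exists_dCoord_eq (v : Place K F) : ∃ t : F, v.ord t = 1 ∧ v.dCoord = D K F t :=
  ⟨((IsDiscreteValuationRing.exists_irreducible v.toValuationSubring).choose : F),
    v.ord_coe_irreducible
      (IsDiscreteValuationRing.exists_irreducible v.toValuationSubring).choose_spec, rfl⟩

instance dCoordGenerates (v : Place K F) : v.DCoordGenerates where
  span_eq_top := by
    obtain ⟨t, ht, hd⟩ := exists_dCoord_eq v
    have htr : Transcendental K t := transcendental_of_ord_ne_zero v (by rw [ht]; norm_num)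
    rw [hd, eq_top_iff]
    intro ω _
    obtain ⟨f, hf⟩ := exists_smul_D_fnField htr ω
    rw [hf]
    exact Submodule.smul_mem _ _ (Submodule.mem_span_singleton_self _)

/-- order of `f dt` for a uniformizer `t` -/
theorem ordDifferential_smul_D (v : Place K F) {t : F} (ht : v.ord t = 1) (f : F) :
    v.ordDifferential (f • D K F t) = v.ord f := by
  haveI := nontrivial_kaehler K F
  obtain ⟨s, hs, hd⟩ := exists_dCoord_eq v
  have htr : Transcendental K t := transcendental_of_ord_ne_zero v (by rw [ht]; norm_num)
  have hsr : Transcendental K s := transcendental_of_ord_ne_zero v (by rw [hs]; norm_num)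
  obtain ⟨g, hg, hgt⟩ := exists_D_eq_smul_of_uniformizer v hs (f := t) (by rw [ht]; norm_num)
  obtain ⟨h, hh, hht⟩ := exists_D_eq_smul_of_uniformizer v ht (f := s) (by rw [hs]; norm_num)
  have hne := D_ne_zero_fnField (F := F) hsr
  have h1 : (h * g) = 1 := by
    have h2 : (h * g - 1) • D K F s = 0 := by
      rw [sub_smul, mul_smul, ← hgt, ← hht, one_smul, sub_self]
    rcases smul_eq_zero.mp h2 with h3 | h3
    · exact sub_eq_zero.mp h3
    · exact absurd h3 hne
  have hg0 : g ≠ 0 := right_ne_zero_of_mul_eq_one h1
  have hh0 : h ≠ 0 := left_ne_zero_of_mul_eq_one h1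
  have h2 : v.ord h + v.ord g = 0 := by rw [← v.ord_mul hh0 hg0, h1, v.ord_one]
  have hg1 : v.ord g = 0 := by omega
  have h3 : v.differentialCoeff (f • D K F t) = f * g :=
    v.differentialCoeff_unique (by rw [hgt, hd, smul_smul])
  rw [Place.ordDifferential, h3]
  rcases eq_or_ne f 0 with rfl | hf
  · simp
  · rw [v.ord_mul hf hg0, hg1, add_zero]

theorem ordDifferential_smul' (v : Place K F) {f : F} (hf : f ≠ 0) {ω : Ω[F⁄K]} (hω : ω ≠ 0) :
    v.ordDifferential (f • ω) = v.ord f + v.ordDifferential ω := by
  obtain ⟨t, -, ht⟩ := exists_ord_eq_one v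
  have htr : Transcendental K t := transcendental_of_ord_ne_zero v (by rw [ht]; norm_num)
  obtain ⟨g, rfl⟩ := exists_smul_D_fnField htr ω
  have hg : g ≠ 0 := by
    rintro rfl
    exact hω (zero_smul _ _)
  rw [smul_smul, ordDifferential_smul_D v ht, ordDifferential_smul_D v ht, v.ord_mul hf hg]

/-- order of `dx` where `x` has a zero or a pole -/
theorem ordDifferential_D (v : Place K F) {x : F} (hx : v.ord x ≠ 0) :
    v.ordDifferential (D K F x) = v.ord x - 1 := by
  have hx0 : x ≠ 0 := by
    rintro rfl
    exact hx v.ord_zero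
  obtain ⟨t, ht0, ht⟩ := exists_ord_eq_one v
  set n := v.ord x with hn
  -- `x = u t ^ n`
  set u := x * t ^ (-n) with hu
  have hu0 : u ≠ 0 := mul_ne_zero hx0 (zpow_ne_zero _ ht0)
  have hun : v.ord u = 0 := by
    rw [hu, v.ord_mul hx0 (zpow_ne_zero _ ht0), v.ord_zpow, ht]
    omega
  have hxu : x = u * t ^ n := by
    rw [hu, mul_assoc, ← zpow_add₀ ht0]
    simp
  obtain ⟨g, hg, hgu⟩ := exists_D_eq_smul_of_uniformizer v ht (f := u) hun.ge
  have hD : D K F x = (n * u * t ^ (n - 1) + t ^ n * g) • D K F t := by
    rw [hxu, Derivation.leibniz, hgu, Derivation.leibniz_zpow]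
    rw [smul_smul, add_smul]
    congr 1
    rw [← Int.cast_smul_eq_zsmul F n, smul_smul, smul_smul]
    congr 1
    ring
  rw [hD, ordDifferential_smul_D v ht]
  have hn0 : (n : F) ≠ 0 := by
    haveI : CharZero F := charZero_of_injective_algebraMap (algebraMap K F).injective
    exact_mod_cast hx
  have h1 : v.ord (n * u * t ^ (n - 1)) = n - 1 := by
    rw [v.ord_mul (mul_ne_zero hn0 hu0) (zpow_ne_zero _ ht0), v.ord_mul hn0 hu0, v.ord_zpow, ht,
      hun]
    have : v.ord (n : F) = 0 := by
      have := ord_algebraMap v (n : K)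
      simpa using this
    rw [this]
    ring
  rw [ord_add_eq_of_lt v (mul_ne_zero (mul_ne_zero hn0 hu0) (zpow_ne_zero _ ht0)), h1]
  rcases eq_or_ne g 0 with rfl | hg0
  · left; simp
  · right
    rw [h1, v.ord_mul (zpow_ne_zero _ ht0) hg0, v.ord_zpow, ht]
    omega

/-- `d(x - a) = dx` -/
theorem D_sub_algebraMap (x : F) (a : K) : D K F (x - algebraMap K F a) = D K F x := by
  rw [map_sub, Derivation.map_algebraMap, sub_zero]

/-- over an algebraically closed field, every integral function has a value -/
theorem exists_value [IsAlgClosed K] (v : Place K F) {x : F} (hx : 0 ≤ v.ord x) :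
    ∃ a : K, x - algebraMap K F a = 0 ∨ 0 < v.ord (x - algebraMap K F a) := by
  haveI := finite_residueField v
  have : Algebra.IsIntegral K v.ResidueField := Algebra.IsIntegral.of_finite K v.ResidueField
  have hbij : Function.Bijective (algebraMap K v.ResidueField) :=
    IsAlgClosed.algebraMap_bijective_of_isIntegral
  obtain ⟨a, ha⟩ := hbij.surjective (IsLocalRing.residue _ ⟨x, mem_of_ord_nonneg v hx⟩)
  refine ⟨a, ?_⟩
  have h1 : (⟨x, mem_of_ord_nonneg v hx⟩ - algebraMap K v.toValuationSubring a :
      v.toValuationSubring) ∈ maximalIdeal v.toValuationSubring := by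
    rw [← IsLocalRing.residue_eq_zero_iff, map_sub, ← ha, sub_eq_zero]
    rfl
  rw [coe_mem_maximalIdeal_iff] at h1
  exact h1

end Main

end Fermat.Agent.FF
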