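import Fermat.Agent.FF.Basic
import Mathlib.RingTheory.RamificationInertia.Basic

/-!
# Places over a point of a Dedekind domain: degree formula
-/

set_option autoImplicit false
set_option linter.unusedSectionVars false
set_option linter.style.haveILetI false

open IsDedekindDomain WithZero IsLocalRing AlgebraicCurve

namespace Fermat.Agent.FF

variable {K F : Type*} [Field K] [Field F] [Algebra K F]

section Residue

variable {R : Type*} [CommRing R] [IsDedekindDomain R] [Algebra R F] [IsFractionRing R F]
  [Algebra K R] [IsScalarTower K R F] (w : HeightOneSpectrum R)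

/-- The map from `R` to the residue field of the place attached to `w`. -/
noncomputable def toResidue : R →ₐ[K] (Place.ofHeightOneSpectrum (K := K) (F := F) w).ResidueField where
  toRingHom := (IsLocalRing.residue _).comp
    ((algebraMap R F).codRestrict
      (Place.ofHeightOneSpectrum (K := K) (F := F) w).toValuationSubring.toSubring
      (algebraMap_mem_ofHeightOneSpectrum w))
  commutes' a := by
    change IsLocalRing.residue _ _ = IsLocalRing.residue _ _
    congr 1
    apply Subtype.ext
    change algebraMap R F (algebraMap K R a) = algebraMap K F a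
    exact (IsScalarTower.algebraMap_apply K R F a).symm

theorem toResidue_apply (r : R) : toResidue (K := K) (F := F) w r =
    IsLocalRing.residue _ (⟨algebraMap R F r, algebraMap_mem_ofHeightOneSpectrum w r⟩ :
      (Place.ofHeightOneSpectrum (K := K) (F := F) w).toValuationSubring) := rfl

theorem toResidue_surjective : Function.Surjective (toResidue (K := K) (F := F) w) := by
  intro y
  obtain ⟨⟨f, hf⟩, rfl⟩ := IsLocalRing.residue_surjective y
  have hf' := hf
  rw [mem_ofHeightOneSpectrum_iff] at hf'
  obtain ⟨a, ha⟩ := w.exists_valuation_sub_lt_of_integer hf' 1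
  refine ⟨a, ?_⟩
  rw [toResidue_apply, ← sub_eq_zero, ← map_sub, IsLocalRing.residue_eq_zero_iff,
    coe_mem_maximalIdeal_iff]
  change algebraMap R F a - f = 0 ∨
    0 < (Place.ofHeightOneSpectrum (K := K) (F := F) w).ord (algebraMap R F a - f)
  rcases eq_or_ne (algebraMap R F a - f) 0 with h | h
  · exact Or.inl h
  · right
    rw [ord_ofHeightOneSpectrum]
    have hne : w.valuation F (algebraMap R F a - f) ≠ 0 := (Valuation.ne_zero_iff _).mpr h
    rw [Units.val_one, ← exp_log hne, ← exp_zero, exp_lt_exp] at ha
    omega

theorem ker_toResidue : RingHom.ker (toResidue (K := K) (F := F) w) = w.asIdeal := by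
  ext r
  rw [RingHom.mem_ker, toResidue_apply, IsLocalRing.residue_eq_zero_iff, coe_mem_maximalIdeal_iff]
  change algebraMap R F r = 0 ∨
    0 < (Place.ofHeightOneSpectrum (K := K) (F := F) w).ord (algebraMap R F r) ↔ _
  rcases eq_or_ne r 0 with rfl | hr
  · simp
  have hr' : algebraMap R F r ≠ 0 := by simpa using hr
  simp only [hr', false_or]
  rw [ord_ofHeightOneSpectrum, ← w.valuation_lt_one_iff_mem (K := F)]
  have hne : w.valuation F (algebraMap R F r) ≠ 0 := (Valuation.ne_zero_iff _).mpr hr'
  rw [← exp_log hne, ← exp_zero, exp_lt_exp, log_exp]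
  omega

/-- The residue field of the place attached to `w` is `R ⧸ w`. -/
noncomputable def residueEquiv :
    (R ⧸ w.asIdeal) ≃ₐ[K] (Place.ofHeightOneSpectrum (K := K) (F := F) w).ResidueField :=
  (Ideal.quotientEquivAlgOfEq K (ker_toResidue (K := K) (F := F) w).symm).trans
    (Ideal.quotientKerAlgEquivOfSurjective (toResidue_surjective (K := K) (F := F) w))

theorem deg_ofHeightOneSpectrum :
    (Place.ofHeightOneSpectrum (K := K) (F := F) w).deg = Module.finrank K (R ⧸ w.asIdeal) :=
  (residueEquiv (K := K) (F := F) w).toLinearEquiv.finrank_eq.symm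

end Residue

section AB

variable {A B : Type*} [CommRing A] [IsDedekindDomain A] [CommRing B] [IsDedekindDomain B]
  [Algebra A B] [Module.Finite A B] [Module.IsTorsionFree A B]
  [Algebra A F] [Algebra B F] [IsFractionRing B F] [IsScalarTower A B F]
  [Algebra K A] [Algebra K B] [IsScalarTower K A B] [IsScalarTower K B F] [IsScalarTower K A F]

/-- The height one prime of `B` attached to a prime over a nonzero prime of `A`. -/
def overPrime {p : Ideal A} (hp : p ≠ ⊥) (P : p.primesOver B) : HeightOneSpectrum B where
  asIdeal := P.1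
  isPrime := P.2.1
  ne_bot := by
    haveI := P.2.2
    exact Ideal.ne_bot_of_liesOver_of_ne_bot hp P.1

/-- The place attached to a prime over a nonzero prime of `A`. -/
noncomputable def overPlace {p : Ideal A} (hp : p ≠ ⊥) (P : p.primesOver B) : Place K F :=
  Place.ofHeightOneSpectrum (overPrime hp P)

theorem overPlace_injective {p : Ideal A} (hp : p ≠ ⊥) :
    Function.Injective (overPlace (K := K) (F := F) (B := B) hp) := by
  intro P Q h
  have h1 := ofHeightOneSpectrum_injective h
  have h2 := congrArg HeightOneSpectrum.asIdeal h1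
  exact Subtype.ext h2

theorem ord_overPlace {x : A} (hx : x ≠ 0) [hmax : (Ideal.span {x}).IsMaximal]
    (hp : Ideal.span {x} ≠ ⊥) (P : (Ideal.span {x}).primesOver B) :
    (overPlace (K := K) (F := F) hp P).ord (algebraMap A F x) = P.1.ramificationIdx A := by
  haveI := P.2.1
  haveI := P.2.2
  let v : HeightOneSpectrum A := ⟨Ideal.span {x}, hmax.isPrime, hp⟩
  haveI : (overPrime hp P).asIdeal.LiesOver v.asIdeal := P.2.2
  rw [overPlace, ord_ofHeightOneSpectrum, IsScalarTower.algebraMap_apply A B F,
    HeightOneSpectrum.valuation_of_algebraMap,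
    ← HeightOneSpectrum.intValuation_liesOver v (overPrime hp P) x,
    HeightOneSpectrum.intValuation_singleton v hx rfl, ← exp_nsmul, log_exp,
    Ideal.ramificationIdx'_eq_ramificationIdx _ _ hp]
  simp [overPrime]

theorem deg_overPlace {x : A} [hmax : (Ideal.span {x}).IsMaximal]
    (hres : Function.Surjective (algebraMap K (A ⧸ Ideal.span {x})))
    (hp : Ideal.span {x} ≠ ⊥) (P : (Ideal.span {x}).primesOver B) :
    (overPlace (K := K) (F := F) hp P).deg = P.1.inertiaDeg A := by
  haveI := P.2.1
  haveI := P.2.2
  haveI : P.1.IsMaximal := (overPrime hp P).isMaximal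
  rw [overPlace, deg_ofHeightOneSpectrum, Ideal.inertiaDeg_eq_of_isMaximal (Ideal.span {x}) P.1]
  change Module.finrank K (B ⧸ P.1) = _
  letI : Field (A ⧸ Ideal.span {x}) := Ideal.Quotient.field _
  haveI : IsScalarTower K (A ⧸ Ideal.span {x}) (B ⧸ P.1) := by
    apply IsScalarTower.of_algebraMap_eq
    intro a
    change (Ideal.Quotient.mk P.1) (algebraMap K B a) = Ideal.Quotient.mk P.1
      (algebraMap A B (algebraMap K A a))
    rw [← IsScalarTower.algebraMap_apply]
  have h1 : Module.finrank K (A ⧸ Ideal.span {x}) = 1 := by
    have hbij : Function.Bijective (algebraMap K (A ⧸ Ideal.span {x})) :=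
      ⟨(algebraMap K (A ⧸ Ideal.span {x})).injective, hres⟩
    rw [← Module.finrank_self K]
    exact ((AlgEquiv.ofBijective (Algebra.ofId K (A ⧸ Ideal.span {x}))
      hbij).toLinearEquiv.finrank_eq).symm
  have h2 := Module.finrank_mul_finrank K (A ⧸ Ideal.span {x}) (B ⧸ P.1)
  rw [h1, one_mul] at h2
  exact h2.symm

theorem module_finite_residue_overPlace {x : A} [hmax : (Ideal.span {x}).IsMaximal]
    (hres : Function.Surjective (algebraMap K (A ⧸ Ideal.span {x})))
    (hp : Ideal.span {x} ≠ ⊥) (P : (Ideal.span {x}).primesOver B) :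
    Module.Finite K (overPlace (K := K) (F := F) hp P).ResidueField := by
  haveI := P.2.1
  haveI := P.2.2
  have h0 : Module.Finite K (B ⧸ P.1) := by
    haveI : Module.Finite A (B ⧸ P.1) := Module.Finite.trans B (B ⧸ P.1)
    haveI : Module.Finite (A ⧸ Ideal.span {x}) (B ⧸ P.1) := by
      exact Module.Finite.of_restrictScalars_finite A _ _
    haveI : IsScalarTower K (A ⧸ Ideal.span {x}) (B ⧸ P.1) := by
      apply IsScalarTower.of_algebraMap_eq
      intro a
      change (Ideal.Quotient.mk P.1) (algebraMap K B a) = Ideal.Quotient.mk P.1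
        (algebraMap A B (algebraMap K A a))
      rw [← IsScalarTower.algebraMap_apply]
    haveI : Module.Finite K (A ⧸ Ideal.span {x}) :=
      Module.Finite.of_surjective (Algebra.linearMap K (A ⧸ Ideal.span {x})) hres
    exact Module.Finite.trans (A ⧸ Ideal.span {x}) _
  haveI : Module.Finite K (B ⧸ (overPrime hp P).asIdeal) := h0
  exact Module.Finite.equiv (residueEquiv (K := K) (F := F) (overPrime hp P)).toLinearEquiv

/-- The degree formula, Dedekind form. -/
theorem sum_ord_mul_deg_overPlace {x : A} (hx : x ≠ 0) [hmax : (Ideal.span {x}).IsMaximal]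
    (hres : Function.Surjective (algebraMap K (A ⧸ Ideal.span {x})))
    (hp : Ideal.span {x} ≠ ⊥) [Fintype ((Ideal.span {x}).primesOver B)] :
    ∑ P : (Ideal.span {x}).primesOver B,
      (overPlace (K := K) (F := F) hp P).ord (algebraMap A F x) *
        (overPlace (K := K) (F := F) hp P).deg = Module.finrank A B := by
  have := hmax.isPrime
  rw [← Ideal.sum_ramification_inertia_eq_finrank (Ideal.span {x}) B]
  push_cast
  refine Finset.sum_congr rfl fun P _ => ?_
  rw [ord_overPlace hx hp P, deg_overPlace hres hp P]

/-- Places which are positive at `x` are the places over `span {x}` (provided all such places are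
nonnegative on `A` and `B` is integral over `A`). -/
theorem range_overPlace {x : A} [hmax : (Ideal.span {x}).IsMaximal] (hp : Ideal.span {x} ≠ ⊥)
    (hA : ∀ v : Place K F, 0 < v.ord (algebraMap A F x) →
      ∀ a : A, algebraMap A F a ∈ v.toValuationSubring) :
    Set.range (overPlace (K := K) (F := F) (B := B) hp) =
      {v : Place K F | 0 < v.ord (algebraMap A F x)} := by
  have hx : x ≠ 0 := by
    rintro rfl
    exact hp (by simp)
  ext v
  constructor
  · rintro ⟨P, rfl⟩
    haveI := P.2.1
    haveI := P.2.2
    rw [Set.mem_ofPred_eq, ord_overPlace hx hp P]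
    have := Ideal.ramificationIdx_pos P.1 A
    exact_mod_cast this
  · intro hv
    have hvA := hA v hv
    have hvB : ∀ b : B, algebraMap B F b ∈ v.toValuationSubring := by
      intro b
      have hb : IsIntegral A b := Algebra.IsIntegral.isIntegral b
      have hb' : IsIntegral A (algebraMap B F b) := hb.algebraMap
      letI : Algebra A v.toValuationSubring :=
        ((algebraMap A F).codRestrict v.toValuationSubring.toSubring hvA).toAlgebra
      haveI : IsScalarTower A v.toValuationSubring F := IsScalarTower.of_algebraMap_eq fun _ => rfl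
      have hb'' : IsIntegral v.toValuationSubring (algebraMap B F b) := hb'.tower_top
      obtain ⟨y, hy⟩ := IsIntegrallyClosed.isIntegral_iff.mp hb''
      rw [← hy]
      exact y.2
    obtain ⟨w, hw, hwc⟩ := exists_heightOneSpectrum v hvB
    have hle : w.asIdeal.LiesOver (Ideal.span {x}) := by
      constructor
      refine hmax.eq_of_le ?_ ?_
      · exact Ideal.IsPrime.ne_top (Ideal.IsPrime.under A w.asIdeal)
      · rw [Ideal.span_singleton_le_iff_mem, Ideal.under, Ideal.mem_comap, hwc, mem_centre_iff]
        right
        rw [← IsScalarTower.algebraMap_apply A B F]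
        exact hv
    exact ⟨⟨w.asIdeal, w.isPrime, hle⟩, hw⟩

end AB

end Fermat.Agent.FF
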