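import Fermat.Agent.FF.Degree

/-!
# Zeros of a nonconstant function: `∑_{v(x)>0} v(x) deg v = [F : K(x)]`
-/

set_option autoImplicit false
set_option linter.unusedSectionVars false
set_option linter.style.haveILetI false

open IsDedekindDomain WithZero IsLocalRing AlgebraicCurve IntermediateField
open scoped IntermediateField.algebraAdjoinAdjoin

namespace Fermat.Agent.FF

variable {K F : Type*} [Field K] [Field F] [Algebra K F]

section Adjoin

variable (x : F)

instance isPrincipalIdealRing_adjoin : IsPrincipalIdealRing (Algebra.adjoin K {x}) := by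
  have hsurj : Function.Surjective
      ((Subalgebra.equivOfEq _ _ (Algebra.adjoin_singleton_eq_range_aeval K x).symm).toAlgHom.comp
        (Polynomial.aeval (R := K) x).rangeRestrict) :=
    (Subalgebra.equivOfEq _ _ (Algebra.adjoin_singleton_eq_range_aeval K x).symm).surjective.comp
      (AlgHom.rangeRestrict_surjective _)
  exact IsPrincipalIdealRing.of_surjective _ hsurj

/-- the element `x` of `K[x]` -/
def gen : Algebra.adjoin K {x} := ⟨x, Algebra.self_mem_adjoin_singleton K x⟩

@[simp] theorem coe_gen : ((gen x : Algebra.adjoin K {x}) : F) = x := rfl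

@[simp] theorem algebraMap_gen : algebraMap (Algebra.adjoin K {x}) F (gen x) = x := rfl

theorem exists_poly (y : Algebra.adjoin K {x}) :
    ∃ p : Polynomial K, (y : F) = Polynomial.aeval x p := by
  obtain ⟨y, h⟩ := y
  rw [Algebra.adjoin_singleton_eq_range_aeval] at h
  obtain ⟨p, hp⟩ := h
  exact ⟨p, hp.symm⟩

/-- every element of `K[x]` is congruent to a constant modulo `x`. -/
theorem exists_sub_mem (y : Algebra.adjoin K {x}) :
    ∃ a : K, y - algebraMap K _ a ∈ Ideal.span {(gen x : Algebra.adjoin K {x})} := by
  obtain ⟨p, hp⟩ := exists_poly x y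
  refine ⟨p.coeff 0, ?_⟩
  rw [Ideal.mem_span_singleton]
  have h1 : p = Polynomial.X * p.divX + Polynomial.C (p.coeff 0) :=
    (Polynomial.X_mul_divX_add p).symm
  refine ⟨⟨Polynomial.aeval x p.divX, Polynomial.aeval_mem_adjoin_singleton K x⟩, ?_⟩
  apply Subtype.ext
  change (y : F) - algebraMap K F (p.coeff 0) = x * Polynomial.aeval x p.divX
  rw [hp]
  have h2 := congrArg (Polynomial.aeval x) h1
  rw [map_add, map_mul, Polynomial.aeval_X, Polynomial.aeval_C] at h2
  rw [h2, add_sub_cancel_right]

theorem algebraMap_quotient_surjective :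
    Function.Surjective (algebraMap K
      (Algebra.adjoin K {x} ⧸ Ideal.span {(gen x : Algebra.adjoin K {x})})) := by
  intro y
  obtain ⟨y, rfl⟩ := Ideal.Quotient.mk_surjective y
  obtain ⟨a, ha⟩ := exists_sub_mem x y
  refine ⟨a, ?_⟩
  change Ideal.Quotient.mk _ (algebraMap K _ a) = Ideal.Quotient.mk _ y
  rw [eq_comm, Ideal.Quotient.mk_eq_mk_iff_sub_mem]
  exact ha

variable {x}

theorem gen_ne_zero (hx : x ≠ 0) : (gen x : Algebra.adjoin K {x}) ≠ 0 := by
  intro h
  exact hx (congrArg Subtype.val h)

theorem span_gen_ne_bot (hx : x ≠ 0) : Ideal.span {(gen x : Algebra.adjoin K {x})} ≠ ⊥ := by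
  rw [ne_eq, Ideal.span_singleton_eq_bot]
  exact gen_ne_zero hx

theorem span_gen_ne_top (hx : Transcendental K x) :
    Ideal.span {(gen x : Algebra.adjoin K {x})} ≠ ⊤ := by
  intro h
  rw [Ideal.eq_top_iff_one, Ideal.mem_span_singleton] at h
  obtain ⟨y, hy⟩ := h
  obtain ⟨p, hp⟩ := exists_poly x y
  have h1 : (1 : F) = x * Polynomial.aeval x p := by
    have := congrArg Subtype.val hy
    rw [← hp]
    exact this
  have h2 : Polynomial.aeval x (Polynomial.X * p - 1 : Polynomial K) = 0 := by
    simp [← h1]
  have h3 : (Polynomial.X * p - 1 : Polynomial K) = 0 := by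
    by_contra h4
    exact hx ⟨_, h4, h2⟩
  have h4 := congrArg (Polynomial.eval 0) h3
  simp at h4

theorem isMaximal_span_gen (hx : Transcendental K x) :
    (Ideal.span {(gen x : Algebra.adjoin K {x})}).IsMaximal := by
  rw [Ideal.isMaximal_def]
  refine ⟨span_gen_ne_top hx, fun J hJ => ?_⟩
  obtain ⟨y, hyJ, hy⟩ := Set.exists_of_ssubset hJ
  obtain ⟨a, ha⟩ := exists_sub_mem x y
  have ha0 : a ≠ 0 := by
    rintro rfl
    apply hy
    simpa using ha
  have h1 : algebraMap K (Algebra.adjoin K {x}) a ∈ J := by
    have h2 := J.sub_mem hyJ (hJ.le ha)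
    simpa using h2
  apply Ideal.eq_top_of_isUnit_mem _ h1
  exact (IsUnit.mk0 a ha0).map (algebraMap K _)

theorem transcendental_ne_zero (hx : Transcendental K x) : x ≠ 0 := by
  rintro rfl
  exact hx (isAlgebraic_zero)

/-- `K[x]` is inside the valuation ring of any place positive at `x`. -/
theorem adjoin_mem_of_ord_nonneg (v : Place K F) (hv : 0 ≤ v.ord x)
    (a : Algebra.adjoin K {x}) : algebraMap _ F a ∈ v.toValuationSubring := by
  change (a : F) ∈ v.toValuationSubring
  obtain ⟨p, hp⟩ := exists_poly x a
  rw [hp, Polynomial.aeval_eq_sum_range]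
  refine sum_mem fun i _ => ?_
  rw [Algebra.smul_def]
  exact mul_mem (v.algebraMap_mem' _) (pow_mem (mem_of_ord_nonneg v hv) i)

end Adjoin

section Main

variable {x : F} (hx : Transcendental K x) [FiniteDimensional K⟮x⟯ F] [Algebra.IsSeparable K⟮x⟯ F]

instance isDedekindDomain_intClosure :
    IsDedekindDomain (integralClosure (Algebra.adjoin K {x}) F) :=
  integralClosure.isDedekindDomain (Algebra.adjoin K {x}) K⟮x⟯ F

instance isFractionRing_intClosure :
    IsFractionRing (integralClosure (Algebra.adjoin K {x}) F) F :=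
  integralClosure.isFractionRing_of_finite_extension K⟮x⟯ F

instance moduleFinite_intClosure :
    Module.Finite (Algebra.adjoin K {x}) (integralClosure (Algebra.adjoin K {x}) F) :=
  IsIntegralClosure.finite (Algebra.adjoin K {x}) K⟮x⟯ F _

theorem finrank_intClosure :
    Module.finrank (Algebra.adjoin K {x}) (integralClosure (Algebra.adjoin K {x}) F) =
      Module.finrank K⟮x⟯ F :=
  IsIntegralClosure.rank (Algebra.adjoin K {x}) K⟮x⟯ F _

variable (x) in
/-- The places positive at `x`. -/
def zeros : Set (Place K F) := {v | 0 < v.ord x}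

theorem range_overPlace_gen (hx : Transcendental K x) [(Ideal.span {(gen x : Algebra.adjoin K {x})}).IsMaximal] :
    Set.range (overPlace (K := K) (F := F) (B := integralClosure (Algebra.adjoin K {x}) F)
      (span_gen_ne_bot (K := K) (transcendental_ne_zero hx))) = zeros x := by
  rw [range_overPlace]
  · rfl
  · intro v hv a
    exact adjoin_mem_of_ord_nonneg v hv.le a

include hx in
theorem finite_zeros : (zeros (K := K) x).Finite := by
  haveI := isMaximal_span_gen hx
  rw [← range_overPlace_gen hx]
  haveI := (IsDedekindDomain.primesOver_finite (Ideal.span {(gen x : Algebra.adjoin K {x})})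
    (integralClosure (Algebra.adjoin K {x}) F)).to_subtype
  exact Set.finite_range _

include hx in
theorem sum_zeros : ∑ᶠ v ∈ zeros (K := K) x, v.ord x * (v.deg : ℤ) = Module.finrank K⟮x⟯ F := by
  haveI := isMaximal_span_gen hx
  haveI := (IsDedekindDomain.primesOver_finite (Ideal.span {(gen x : Algebra.adjoin K {x})})
    (integralClosure (Algebra.adjoin K {x}) F)).to_subtype
  rw [← range_overPlace_gen hx, finsum_mem_range (overPlace_injective _), finsum_eq_sum_of_fintype]
  have h := sum_ord_mul_deg_overPlace (K := K) (F := F)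
    (B := integralClosure (Algebra.adjoin K {x}) F) (gen_ne_zero (transcendental_ne_zero hx))
    (algebraMap_quotient_surjective x) (span_gen_ne_bot (K := K) (transcendental_ne_zero hx))
  rw [finrank_intClosure] at h
  exact h

include hx in
theorem finite_residueField_of_mem_zeros {v : Place K F} (hv : v ∈ zeros (K := K) x) :
    Module.Finite K v.ResidueField := by
  haveI := isMaximal_span_gen hx
  rw [← range_overPlace_gen hx] at hv
  obtain ⟨P, hP⟩ := hv
  have h := module_finite_residue_overPlace (K := K) (F := F) (A := Algebra.adjoin K {x})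
    (B := integralClosure (Algebra.adjoin K {x}) F) (x := gen x)
    (algebraMap_quotient_surjective x) (span_gen_ne_bot (K := K) (transcendental_ne_zero hx)) P
  rw [hP] at h
  exact h

end Main

end Fermat.Agent.FF
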