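import Fermat.Agent.FF.Degree
import Fermat.Agent.RR.Approx
import Fermat.Agent.RR.Places
import Fermat.Prelude.Def_AlgebraicCurve_DivisorPushPull
import Mathlib.RingTheory.IntegralClosure.IntegralRestrict

/-!
# Fibres of the restriction map: fundamental identity and norm formula
-/

set_option autoImplicit false
set_option linter.unusedSectionVars false
set_option linter.style.haveILetI false

open IsDedekindDomain WithZero IsLocalRing AlgebraicCurve

namespace Fermat.Agent.FF

variable {K F F' : Type*} [Field K] [Field F] [Field F'] [Algebra K F] [Algebra K F']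
  [Algebra F F'] [IsScalarTower K F F'] [Module.Finite F F'] [Algebra.IsSeparable F F']
variable (v : Place K F)

instance isScalarTower_place : IsScalarTower K v.toValuationSubring F' :=
  IsScalarTower.of_algebraMap_eq fun a => by
    rw [IsScalarTower.algebraMap_apply K F F', IsScalarTower.algebraMap_apply
      v.toValuationSubring F F']
    rfl

variable (F') in
/-- the integral closure of the valuation ring of `v` -/
abbrev intCl : Subalgebra v.toValuationSubring F' := integralClosure v.toValuationSubring F'

instance isDedekindDomain_intCl : IsDedekindDomain (intCl F' v) :=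
  integralClosure.isDedekindDomain v.toValuationSubring F F'

instance isFractionRing_intCl : IsFractionRing (intCl F' v) F' :=
  integralClosure.isFractionRing_of_finite_extension F F'

instance moduleFinite_intCl : Module.Finite v.toValuationSubring (intCl F' v) :=
  IsIntegralClosure.finite v.toValuationSubring F F' _

theorem finrank_intCl : Module.finrank v.toValuationSubring (intCl F' v) = Module.finrank F F' :=
  IsIntegralClosure.rank v.toValuationSubring F F' _

theorem intCl_mem_of_restrict_eq {w : Place K F'} (hw : w.restrict F = v) (b : intCl F' v) :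
    algebraMap (intCl F' v) F' b ∈ w.toValuationSubring := by
  have hvA : ∀ a : v.toValuationSubring, algebraMap v.toValuationSubring F' a ∈
      w.toValuationSubring := by
    intro a
    have h1 : (a : F) ∈ (w.restrict F).toValuationSubring := by rw [hw]; exact a.2
    exact h1
  have hb : IsIntegral v.toValuationSubring (algebraMap (intCl F' v) F' b) := b.2
  letI : Algebra v.toValuationSubring w.toValuationSubring :=
    ((algebraMap v.toValuationSubring F').codRestrict w.toValuationSubring.toSubring hvA).toAlgebra
  haveI : IsScalarTower v.toValuationSubring w.toValuationSubring F' :=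
    IsScalarTower.of_algebraMap_eq fun _ => rfl
  have hb'' : IsIntegral w.toValuationSubring (algebraMap (intCl F' v) F' b) := hb.tower_top
  obtain ⟨y, hy⟩ := IsIntegrallyClosed.isIntegral_iff.mp hb''
  rw [← hy]
  exact y.2

/-- The fibre of the restriction map is the set of primes of the integral closure over `v`. -/
theorem range_overPlace_fiber {π : v.toValuationSubring} (hπ : Irreducible π)
    [(Ideal.span {π}).IsMaximal] (hp : Ideal.span {π} ≠ ⊥) :
    Set.range (overPlace (K := K) (F := F') (B := intCl F' v) hp) =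
      {w : Place K F' | w.restrict F = v} := by
  ext w
  constructor
  · rintro ⟨P, rfl⟩
    change (overPlace hp P).restrict F = v
    symm
    apply eq_of_le
    intro a ha
    rw [Place.mem_restrict_iff]
    have h1 := algebraMap_mem_ofHeightOneSpectrum (K := K) (F := F') (overPrime hp P)
      (algebraMap v.toValuationSubring (intCl F' v) ⟨a, ha⟩)
    exact h1
  · intro hw
    rw [Set.mem_ofPred_eq] at hw
    have hB := intCl_mem_of_restrict_eq v hw
    obtain ⟨q, hq, hqc⟩ := exists_heightOneSpectrum w hB
    have hle : q.asIdeal.LiesOver (Ideal.span {π}) := by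
      constructor
      refine Ideal.IsMaximal.eq_of_le inferInstance ?_ ?_
      · exact Ideal.IsPrime.ne_top (Ideal.IsPrime.under v.toValuationSubring q.asIdeal)
      · rw [Ideal.span_singleton_le_iff_mem, Ideal.under, Ideal.mem_comap, hqc, mem_centre_iff]
        right
        change 0 < w.ord (algebraMap F F' (π : F))
        rw [Place.ord_restrict, hw, v.ord_coe_irreducible hπ, mul_one]
        exact_mod_cast w.ramificationIndex_pos
    exact ⟨⟨q.asIdeal, q.isPrime, hle⟩, hq⟩

theorem isMaximal_span_irreducible {π : v.toValuationSubring} (hπ : Irreducible π) :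
    (Ideal.span {π}).IsMaximal := by
  rw [← hπ.maximalIdeal_eq]
  infer_instance

/-- Fundamental identity, over an algebraically closed field. -/
theorem sum_ramificationIndex [IsAlgClosed K] [IsFnField K F] [IsFnField K F']
    [HasPrincipalDivisors K F'] :
    ∑ w ∈ v.fiber F', (w.ramificationIndex F : ℤ) = Module.finrank F F' := by
  classical
  obtain ⟨π, hπ⟩ := IsDiscreteValuationRing.exists_irreducible v.toValuationSubring
  haveI := isMaximal_span_irreducible v hπ
  have hp : Ideal.span {π} ≠ ⊥ := by
    rw [ne_eq, Ideal.span_singleton_eq_bot]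
    exact hπ.ne_zero
  haveI : Fintype ((Ideal.span {π}).primesOver (intCl F' v)) :=
    @Fintype.ofFinite _ (IsDedekindDomain.primesOver_finite (Ideal.span {π}) (intCl F' v)).to_subtype
  have hres : Function.Surjective (algebraMap K (v.toValuationSubring ⧸ Ideal.span {π})) := by
    have h1 := (RR.bijective_algebraMap_residueField v).surjective
    intro y
    obtain ⟨y, rfl⟩ := Ideal.Quotient.mk_surjective y
    obtain ⟨a, ha⟩ := h1 (IsLocalRing.residue _ y)
    refine ⟨a, ?_⟩
    change Ideal.Quotient.mk _ (algebraMap K _ a) = Ideal.Quotient.mk _ y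
    rw [eq_comm, Ideal.Quotient.mk_eq_mk_iff_sub_mem, ← hπ.maximalIdeal_eq,
      ← IsLocalRing.residue_eq_zero_iff, map_sub, ← ha, sub_eq_zero]
    rfl
  have h := sum_ord_mul_deg_overPlace (K := K) (F := F') (B := intCl F' v) hπ.ne_zero hres hp
  rw [finrank_intCl] at h
  rw [← h]
  have h2 : v.fiber F' = Finset.univ.image
      (overPlace (K := K) (F := F') (B := intCl F' v) hp) := by
    ext w
    rw [Place.mem_fiber, Finset.mem_image]
    have h3 := Set.ext_iff.mp (range_overPlace_fiber (F' := F') v hπ hp) w
    rw [Set.mem_ofPred_eq] at h3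
    rw [← h3]
    simp
  rw [h2, Finset.sum_image (fun a _ b _ hab => overPlace_injective hp hab)]
  refine Finset.sum_congr rfl fun P _ => ?_
  have h4 : (overPlace (K := K) (F := F') (B := intCl F' v) hp P).restrict F = v := by
    have h5 := range_overPlace_fiber (F' := F') v hπ hp
    have h6 : overPlace (K := K) (F := F') (B := intCl F' v) hp P ∈
      {w : Place K F' | w.restrict F = v} := by
      rw [← h5]
      exact ⟨P, rfl⟩
    exact h6
  rw [RR.deg_eq_one, Nat.cast_one, mul_one]
  change _ = (overPlace hp P).ord (algebraMap F F' (π : F))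
  rw [Place.ord_restrict, h4, v.ord_coe_irreducible hπ, mul_one]

section OrdProd

omit [Algebra K F'] [Algebra F F'] [IsScalarTower K F F'] [Module.Finite F F']
  [Algebra.IsSeparable F F'] in
theorem ord_prod' {ι : Type*} (s : Finset ι) (f : ι → F)
    (hf : ∀ i ∈ s, f i ≠ 0) : v.ord (∏ i ∈ s, f i) = ∑ i ∈ s, v.ord (f i) := by
  classical
  induction s using Finset.induction_on with
  | empty => simp
  | insert a s ha ih =>
    rw [Finset.prod_insert ha, Finset.sum_insert ha, v.ord_mul, ih]
    · intro i hi
      exact hf i (Finset.mem_insert_of_mem hi)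
    · exact hf a (Finset.mem_insert_self _ _)
    · exact Finset.prod_ne_zero_iff.mpr fun i hi => hf i (Finset.mem_insert_of_mem hi)

variable (F F') in
/-- the norm as a homomorphism of monoids with zero -/
noncomputable def normHom : F' →*₀ F :=
  { Algebra.norm F with map_zero' := Algebra.norm_zero }

theorem norm_inv' (f : F') : Algebra.norm F f⁻¹ = (Algebra.norm F f)⁻¹ :=
  map_inv₀ (normHom F F') f

theorem norm_zpow' (f : F') (n : ℤ) : Algebra.norm F (f ^ n) = (Algebra.norm F f) ^ n :=
  map_zpow₀ (normHom F F') f n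

end OrdProd

section Norm

variable [IsAlgClosed K] [IsFnField K F] [IsFnField K F'] [HasPrincipalDivisors K F']

omit [IsAlgClosed K] [IsFnField K F] [IsFnField K F'] in
/-- A function which is regular on the fibre over `v` is integral over the valuation ring. -/
theorem exists_intCl_of_forall {f : F'} (hf : ∀ w ∈ v.fiber F', 0 ≤ w.ord f) :
    ∃ b : intCl F' v, algebraMap (intCl F' v) F' b = f := by
  apply HeightOneSpectrum.mem_integers_of_valuation_le_one (K := F') (R := intCl F' v) f
  intro q
  have h1 : (Place.ofHeightOneSpectrum (K := K) (F := F') q).restrict F = v := by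
    symm
    apply eq_of_le
    intro a ha
    rw [Place.mem_restrict_iff]
    exact algebraMap_mem_ofHeightOneSpectrum (K := K) (F := F') q
      (algebraMap v.toValuationSubring (intCl F' v) ⟨a, ha⟩)
  have h2 := hf _ (Place.mem_fiber.mpr h1)
  exact (mem_ofHeightOneSpectrum_iff (K := K) q).mp (mem_of_ord_nonneg _ h2)

omit [IsAlgClosed K] [IsFnField K F] [IsFnField K F'] in
theorem norm_ord_nonneg {f : F'} (hf : ∀ w ∈ v.fiber F', 0 ≤ w.ord f) :
    0 ≤ v.ord (Algebra.norm F f) := by
  obtain ⟨b, rfl⟩ := exists_intCl_of_forall v hf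
  have h1 : IsIntegral v.toValuationSubring (algebraMap (intCl F' v) F' b) := b.2
  have h2 : IsIntegral v.toValuationSubring (Algebra.norm F (algebraMap (intCl F' v) F' b)) :=
    Algebra.isIntegral_norm F h1
  obtain ⟨y, hy⟩ := IsIntegrallyClosed.isIntegral_iff.mp h2
  rw [← hy]
  exact ord_nonneg_of_mem v y.2

omit [IsAlgClosed K] [IsFnField K F] [IsFnField K F'] in
theorem norm_ord_pos {f : F'} (hf0 : f ≠ 0) (hf : ∀ w ∈ v.fiber F', 0 ≤ w.ord f)
    {w : Place K F'} (hw : w ∈ v.fiber F') (hwf : 0 < w.ord f) :
    0 < v.ord (Algebra.norm F f) := by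
  rcases (norm_ord_nonneg v hf).lt_or_eq with h | h
  · exact h
  exfalso
  obtain ⟨b, hb⟩ := exists_intCl_of_forall v hf
  obtain ⟨b', hb'⟩ := Algebra.dvd_algebraMap_intNorm_self v.toValuationSubring (intCl F' v) b
  have h1 : algebraMap F F' (Algebra.norm F f) = f * algebraMap (intCl F' v) F' b' := by
    have h2 := congrArg (algebraMap (intCl F' v) F') hb'
    rw [map_mul, hb, ← IsScalarTower.algebraMap_apply,
      IsScalarTower.algebraMap_apply v.toValuationSubring F F',
      Algebra.algebraMap_intNorm (A := v.toValuationSubring) (K := F) (L := F')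
        (B := intCl F' v), hb] at h2
    exact h2
  have hN : Algebra.norm F f ≠ 0 := Algebra.norm_ne_zero_iff.mpr hf0
  have hN' : algebraMap F F' (Algebra.norm F f) ≠ 0 := by simpa using hN
  have hb0 : algebraMap (intCl F' v) F' b' ≠ 0 := by
    intro h0
    rw [h1, h0, mul_zero] at hN'
    exact hN' rfl
  have h3 := congrArg w.ord h1
  rw [w.ord_mul hf0 hb0, Place.ord_restrict, Place.mem_fiber.mp hw, ← h, mul_zero] at h3
  have h4 := ord_nonneg_of_mem w (intCl_mem_of_restrict_eq v (Place.mem_fiber.mp hw) b')
  omega

omit [IsAlgClosed K] [IsFnField K F] [IsFnField K F'] in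
theorem norm_ord_eq_zero {f : F'} (hf : ∀ w ∈ v.fiber F', w.ord f = 0) :
    v.ord (Algebra.norm F f) = 0 := by
  apply le_antisymm
  · have h1 := norm_ord_nonneg v (f := f⁻¹) (fun w hw => by rw [w.ord_inv, hf w hw, neg_zero])
    rw [norm_inv', v.ord_inv] at h1
    omega
  · exact norm_ord_nonneg v fun w hw => (hf w hw).ge

omit [IsAlgClosed K] [IsFnField K F] [IsFnField K F'] [Module.Finite F F']
  [Algebra.IsSeparable F F'] in
/-- local parameters on a finite set of places -/
theorem exists_parameters (S : Finset (Place K F')) :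
    ∃ t : Place K F' → F', ∀ w ∈ S, t w ≠ 0 ∧ w.ord (t w) = 1 ∧
      ∀ w' ∈ S, w' ≠ w → w'.ord (t w) = 0 := by
  classical
  have h : ∀ w : Place K F', ∃ t : F', w ∈ S → (t ≠ 0 ∧ w.ord t = 1 ∧
      ∀ w' ∈ S, w' ≠ w → w'.ord t = 0) := by
    intro w
    obtain ⟨s, hs0, hs⟩ := exists_ord_eq_one w
    obtain ⟨t, ht⟩ := RR.exists_approx S (fun w' => if w' = w then s else 1) (fun _ => -2)
    refine ⟨t, fun hw => ?_⟩
    have key : ∀ w' ∈ S, ∀ a : F', a = (if w' = w then s else 1) → a ≠ 0 → w'.ord a ≤ 1 →
        t ≠ 0 ∧ w'.ord t = w'.ord a := by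
      intro w' hw' a ha ha0 ha1
      have h1 := ht w' hw'
      rw [← ha] at h1
      rw [w'.adicValuation_le_exp_iff] at h1
      have h2 : t = a + (t - a) := by ring
      have h3 : w'.ord (a + (t - a)) = w'.ord a := by
        apply ord_add_eq_of_lt w' ha0
        rcases h1 with h1 | h1
        · exact Or.inl h1
        · right
          omega
      rw [← h2] at h3
      refine ⟨?_, h3⟩
      rintro rfl
      rcases h1 with h1 | h1
      · rw [zero_sub, neg_eq_zero] at h1
        exact ha0 h1
      · rw [zero_sub, ord_neg] at h1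
        omega
    obtain ⟨h1, h2⟩ := key w hw s (by simp) hs0 (by omega)
    refine ⟨h1, by rw [h2, hs], fun w' hw' hne => ?_⟩
    obtain ⟨-, h4⟩ := key w' hw' 1 (by simp [hne]) one_ne_zero (by rw [w'.ord_one]; norm_num)
    rw [h4, w'.ord_one]
  choose t ht using h
  exact ⟨t, fun w hw => ht w hw⟩

/-- The norm formula. -/
theorem sum_ord_fiber {f : F'} (hf0 : f ≠ 0) :
    ∑ w ∈ v.fiber F', w.ord f = v.ord (Algebra.norm F f) := by
  classical
  obtain ⟨t, ht⟩ := exists_parameters (v.fiber F')
  set m : Place K F' → ℤ := fun w => v.ord (Algebra.norm F (t w)) with hm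
  -- the decomposition of a function
  have hdec : ∀ g : F', g ≠ 0 → v.ord (Algebra.norm F g) = ∑ w ∈ v.fiber F', w.ord g * m w := by
    intro g hg
    set P : F' := ∏ w ∈ v.fiber F', t w ^ (w.ord g) with hP
    have hPne : ∀ w ∈ v.fiber F', t w ^ (w.ord g) ≠ 0 := fun w hw =>
      zpow_ne_zero _ (ht w hw).1
    have hP0 : P ≠ 0 := Finset.prod_ne_zero_iff.mpr hPne
    have hPord : ∀ w' ∈ v.fiber F', w'.ord P = w'.ord g := by
      intro w' hw'
      rw [hP, ord_prod' w' _ _ hPne, Finset.sum_eq_single w']
      · rw [w'.ord_zpow, (ht w' hw').2.1, mul_one]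
      · intro w hw hne
        rw [w'.ord_zpow, (ht w hw).2.2 w' hw' hne.symm, mul_zero]
      · intro h
        exact absurd hw' h
    have hu : v.ord (Algebra.norm F (g * P⁻¹)) = 0 := by
      apply norm_ord_eq_zero
      intro w hw
      rw [w.ord_mul hg (inv_ne_zero hP0), w.ord_inv, hPord w hw]
      ring
    have h1 : g = (g * P⁻¹) * P := by
      rw [mul_assoc, inv_mul_cancel₀ hP0, mul_one]
    have hne : ∀ x : F', x ≠ 0 → Algebra.norm F x ≠ 0 := fun x hx =>
      Algebra.norm_ne_zero_iff.mpr hx
    rw [h1, map_mul, v.ord_mul (hne _ (mul_ne_zero hg (inv_ne_zero hP0))) (hne _ hP0), hu,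
      zero_add, ← h1, hP, map_prod, ord_prod']
    · refine Finset.sum_congr rfl fun w hw => ?_
      rw [norm_zpow', v.ord_zpow]
    · intro w hw
      exact hne _ (hPne w hw)
  -- `m w ≥ 1`
  have hm1 : ∀ w ∈ v.fiber F', 1 ≤ m w := by
    intro w hw
    have h1 : 0 < v.ord (Algebra.norm F (t w)) := by
      apply norm_ord_pos v (ht w hw).1 ?_ hw (by rw [(ht w hw).2.1]; norm_num)
      intro w' hw'
      by_cases h : w' = w
      · rw [h, (ht w hw).2.1]; norm_num
      · rw [(ht w hw).2.2 w' hw' h]
    exact h1
  -- apply to a uniformizer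
  obtain ⟨s, hs0, hs⟩ := exists_ord_eq_one v
  have h1 := hdec (algebraMap F F' s) (by simpa using hs0)
  rw [Algebra.norm_algebraMap, ord_pow, hs, mul_one, ← sum_ramificationIndex v] at h1
  have h2 : ∑ w ∈ v.fiber F', w.ord (algebraMap F F' s) * m w =
      ∑ w ∈ v.fiber F', (w.ramificationIndex F : ℤ) * m w := by
    refine Finset.sum_congr rfl fun w hw => ?_
    rw [Place.ord_restrict, Place.mem_fiber.mp hw, hs, mul_one]
  rw [h2] at h1
  have h3 : ∀ w ∈ v.fiber F', (w.ramificationIndex F : ℤ) = w.ramificationIndex F * m w := by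
    have h4 : ∀ w ∈ v.fiber F', (w.ramificationIndex F : ℤ) ≤ w.ramificationIndex F * m w := by
      intro w hw
      have := hm1 w hw
      nlinarith [Int.natCast_nonneg (w.ramificationIndex F)]
    exact (Finset.sum_eq_sum_iff_of_le h4).mp h1
  have h5 : ∀ w ∈ v.fiber F', m w = 1 := by
    intro w hw
    have h6 : (0 : ℤ) < w.ramificationIndex F := by exact_mod_cast w.ramificationIndex_pos
    have h7 := h3 w hw
    have h8 : (w.ramificationIndex F : ℤ) * m w = (w.ramificationIndex F : ℤ) * 1 := by
      rw [mul_one]; exact h7.symm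
    exact mul_left_cancel₀ h6.ne' h8
  rw [hdec f hf0]
  refine Finset.sum_congr rfl fun w hw => ?_
  rw [h5 w hw, mul_one]

omit [Module.Finite F F'] [Algebra.IsSeparable F F'] in
theorem inertiaDeg_eq_one [Algebra.IsIntegral F F'] (w : Place K F') : w.inertiaDeg F = 1 := by
  have h := w.deg_restrict_mul_inertiaDeg (F := F)
  rwa [RR.deg_eq_one, RR.deg_eq_one, one_mul] at h

theorem pushforwardNormFormula : Divisor.PushforwardNormFormula K F F' := by
  classical
  intro f hf D hD v
  rw [Divisor.pushforward_apply, ← sum_ord_fiber v hf, ← Finset.sum_filter]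
  have h1 : ∀ w ∈ D.support.filter (fun w => w.restrict F = v), w ∈ v.fiber F' := by
    intro w hw
    rw [Finset.mem_filter] at hw
    exact Place.mem_fiber.mpr hw.2
  have h2 : ∑ w ∈ D.support.filter (fun w => w.restrict F = v), D w * (w.inertiaDeg F : ℤ) =
      ∑ w ∈ D.support.filter (fun w => w.restrict F = v), w.ord f := by
    refine Finset.sum_congr rfl fun w _ => ?_
    rw [inertiaDeg_eq_one, Nat.cast_one, mul_one, hD]
  rw [h2]
  apply Finset.sum_subset h1
  intro w hw hw2
  by_contra h3
  apply hw2
  rw [Finset.mem_filter, Finsupp.mem_support_iff, hD]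
  exact ⟨h3, Place.mem_fiber.mp hw⟩

theorem sumRamificationInertia : SumRamificationInertia K F F' where
  sum_ramificationIndex_mul_inertiaDeg v := by
    rw [← sum_ramificationIndex v]
    refine Finset.sum_congr rfl fun w _ => ?_
    rw [inertiaDeg_eq_one, Nat.cast_one, mul_one]

theorem fundamentalIdentity : FundamentalIdentity K F F' :=
  haveI := sumRamificationInertia (K := K) (F := F) (F' := F')
  inferInstance

end Norm

end Fermat.Agent.FF
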