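import Fermat.Agent.FF.FnField
import Fermat.Prelude.Def_ModularCurve_CanonicalDivisor
import Fermat.Prelude.Def_AlgebraicCurve_CanonicalDivisor

/-!
# Kähler differentials of function fields
-/

set_option autoImplicit false
set_option linter.unusedSectionVars false
set_option linter.style.haveILetI false

open IsDedekindDomain WithZero IsLocalRing AlgebraicCurve IntermediateField KaehlerDifferential
open scoped IntermediateField.algebraAdjoinAdjoin TensorProduct

namespace Fermat.Agent.FF

variable {K F : Type*} [Field K] [Field F] [Algebra K F]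

section Basis

variable {x : F} [Algebra.IsSeparable K⟮x⟯ F]

/-- the isomorphism `K[X] ≃ K[x]` -/
noncomputable def polyEquiv (hx : Transcendental K x) :
    Polynomial K ≃ₐ[K] Algebra.adjoin K {x} :=
  Polynomial.algEquivOfTranscendental K x hx

theorem polyEquiv_symm_gen (hx : Transcendental K x) :
    (polyEquiv hx).symm (gen x) = Polynomial.X := by
  rw [AlgEquiv.symm_apply_eq]
  apply Subtype.ext
  simp [polyEquiv]

theorem formallyEtale_adjoin : Algebra.FormallyEtale (Algebra.adjoin K {x}) F := by
  haveI : Algebra.FormallyEtale (Algebra.adjoin K {x}) K⟮x⟯ :=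
    Algebra.FormallyEtale.of_isLocalization (nonZeroDivisors (Algebra.adjoin K {x}))
  haveI : Algebra.FormallyEtale K⟮x⟯ F := Algebra.FormallyEtale.of_isSeparable _ _
  exact Algebra.FormallyEtale.comp (Algebra.adjoin K {x}) K⟮x⟯ F

/-- `dx` generates the differentials of `K[x]`. -/
theorem span_adjoin_D :
    Submodule.span (Algebra.adjoin K {x}) {D K (Algebra.adjoin K {x}) (gen x)} = ⊤ := by
  rw [← KaehlerDifferential.span_range_derivation, eq_comm]
  apply le_antisymm
  · rw [Submodule.span_le]
    rintro _ ⟨a, rfl⟩
    obtain ⟨p, hp⟩ := exists_poly x a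
    have h1 : a = Polynomial.aeval (gen x : Algebra.adjoin K {x}) p := by
      apply Subtype.ext
      rw [hp, Polynomial.aeval_def, Polynomial.aeval_def]
      rw [Polynomial.eval₂_eq_sum_range, Polynomial.eval₂_eq_sum_range]
      push_cast
      rfl
    rw [h1, Derivation.map_aeval]
    exact Submodule.smul_mem _ _ (Submodule.subset_span rfl)
  · apply Submodule.span_mono
    rintro _ rfl
    exact ⟨_, rfl⟩

theorem exists_smul_adjoin_D (ω : Ω[Algebra.adjoin K {x}⁄K]) :
    ∃ b : Algebra.adjoin K {x}, ω = b • D K (Algebra.adjoin K {x}) (gen x) := by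
  have h : ω ∈ (⊤ : Submodule (Algebra.adjoin K {x}) _) := Submodule.mem_top
  rw [← span_adjoin_D, Submodule.mem_span_singleton] at h
  obtain ⟨b, hb⟩ := h
  exact ⟨b, hb.symm⟩

/-- `dx` generates the differentials of `F`. -/
theorem exists_smul_D (ω : Ω[F⁄K]) : ∃ f : F, ω = f • D K F x := by
  haveI : Algebra.FormallyEtale (Algebra.adjoin K {x}) F := formallyEtale_adjoin
  obtain ⟨t, rfl⟩ :=
    (tensorKaehlerEquivOfFormallyEtale K (Algebra.adjoin K {x}) F).surjective ω
  induction t using TensorProduct.induction_on with
  | zero => exact ⟨0, by simp⟩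
  | tmul f ω =>
    obtain ⟨b, rfl⟩ := exists_smul_adjoin_D ω
    refine ⟨f * algebraMap _ F b, ?_⟩
    rw [tensorKaehlerEquivOfFormallyEtale_apply, mapBaseChange_tmul, map_smul, KaehlerDifferential.map_D]
    rw [← algebraMap_smul F b, smul_smul]
    rfl
  | add s t hs ht =>
    obtain ⟨f, hf⟩ := hs
    obtain ⟨g, hg⟩ := ht
    exact ⟨f + g, by rw [map_add, hf, hg, add_smul]⟩

/-- The derivation `d/dx` on `K[x]`. -/
noncomputable def adjoinDeriv (hx : Transcendental K x) :
    Derivation K (Algebra.adjoin K {x}) (Algebra.adjoin K {x}) where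
  toFun a := polyEquiv hx (Polynomial.derivative ((polyEquiv hx).symm a))
  map_add' a b := by simp
  map_smul' c a := by simp
  map_one_eq_zero' := by simp
  leibniz' a b := by
    change polyEquiv hx (Polynomial.derivative ((polyEquiv hx).symm (a * b))) =
      a • polyEquiv hx (Polynomial.derivative ((polyEquiv hx).symm b)) +
      b • polyEquiv hx (Polynomial.derivative ((polyEquiv hx).symm a))
    simp only [map_mul, Polynomial.derivative_mul, map_add, AlgEquiv.apply_symm_apply,
      smul_eq_mul]
    ring

theorem adjoinDeriv_gen (hx : Transcendental K x) : adjoinDeriv hx (gen x) = 1 := by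
  change polyEquiv hx (Polynomial.derivative ((polyEquiv hx).symm (gen x))) = 1
  rw [polyEquiv_symm_gen, Polynomial.derivative_X, map_one]

/-- the linear form `Ω[F/K] → F` with `dx ↦ 1`. -/
noncomputable def coordForm (hx : Transcendental K x) : Ω[F⁄K] →ₗ[F] F :=
  haveI : Algebra.FormallyEtale (Algebra.adjoin K {x}) F := formallyEtale_adjoin
  ((TensorProduct.AlgebraTensorModule.rid (Algebra.adjoin K {x}) F F).toLinearMap.comp
    (((adjoinDeriv hx).liftKaehlerDifferential).baseChange F)).comp
    (tensorKaehlerEquivOfFormallyEtale K (Algebra.adjoin K {x}) F).symm.toLinearMap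

theorem coordForm_D (hx : Transcendental K x) : coordForm hx (D K F x) = 1 := by
  haveI : Algebra.FormallyEtale (Algebra.adjoin K {x}) F := formallyEtale_adjoin
  have h := tensorKaehlerEquivOfFormallyEtale_symm_D_algebraMap K (Algebra.adjoin K {x}) F (gen x)
  rw [algebraMap_gen] at h
  simp only [coordForm, LinearMap.comp_apply, LinearEquiv.coe_coe]
  rw [h, LinearMap.baseChange_tmul, Derivation.liftKaehlerDifferential_comp_D, adjoinDeriv_gen]
  simp

theorem D_ne_zero (hx : Transcendental K x) : D K F x ≠ 0 := by
  intro h
  have := coordForm_D hx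
  rw [h, map_zero] at this
  exact zero_ne_one this

/-- the derivative `df/dx`. -/
noncomputable def deriv' (hx : Transcendental K x) (f : F) : F := coordForm hx (D K F f)

theorem eq_coordForm_smul (hx : Transcendental K x) (ω : Ω[F⁄K]) :
    ω = coordForm hx ω • D K F x := by
  obtain ⟨f, rfl⟩ := exists_smul_D (x := x) ω
  rw [map_smul, coordForm_D]
  simp

theorem D_eq_smul (hx : Transcendental K x) (f : F) : D K F f = deriv' hx f • D K F x :=
  eq_coordForm_smul hx _

theorem smul_D_injective (hx : Transcendental K x) {f g : F} (h : f • D K F x = g • D K F x) :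
    f = g := by
  have := congrArg (coordForm hx) h
  simpa [map_smul, coordForm_D] using this

end Basis

section Local

variable {t : F} [FiniteDimensional K⟮t⟯ F] [Algebra.IsSeparable K⟮t⟯ F] [PerfectField K]

/-- Abstract form: the derivative with respect to a uniformizer preserves the valuation ring. -/
theorem exists_unramified_smul {B : Type*} [CommRing B] [IsDedekindDomain B]
    [Algebra (Algebra.adjoin K {t}) B] [Module.Finite (Algebra.adjoin K {t}) B]
    [Algebra K B] [IsScalarTower K (Algebra.adjoin K {t}) B]
    [Algebra B F] [IsFractionRing B F] [IsScalarTower (Algebra.adjoin K {t}) B F]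
    [IsScalarTower K B F]
    (P : Ideal B) [P.IsPrime] [P.LiesOver (Ideal.span {(gen t : Algebra.adjoin K {t})})]
    [(Ideal.span {(gen t : Algebra.adjoin K {t})}).IsMaximal]
    (hP : P.ramificationIdx (Algebra.adjoin K {t}) = 1)
    (n d : B) (hd : d ∉ P) :
    ∃ (m e : B), e ∉ P ∧ D K F (algebraMap B F n / algebraMap B F d) =
      (algebraMap B F m / algebraMap B F e) • D K F t := by
  let p : Ideal (Algebra.adjoin K {t}) := Ideal.span {(gen t : Algebra.adjoin K {t})}
  haveI hpm : p.IsMaximal := inferInstanceAs (Ideal.span {(gen t : Algebra.adjoin K {t})}).IsMaximal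
  haveI : PerfectField (P.under (Algebra.adjoin K {t})).ResidueField := by
    have hu : P.under (Algebra.adjoin K {t}) = p := (P.over_def p).symm
    haveI hum : (P.under (Algebra.adjoin K {t})).IsMaximal := hu ▸ hpm
    have h1 : ∀ y : (P.under (Algebra.adjoin K {t})).ResidueField,
        ∃ a : K, algebraMap K _ a = y := by
      intro y
      obtain ⟨y, rfl⟩ := (Ideal.bijective_algebraMap_quotient_residueField
        (P.under (Algebra.adjoin K {t}))).surjective y
      obtain ⟨y, rfl⟩ := Ideal.Quotient.mk_surjective y
      obtain ⟨a, ha⟩ := exists_sub_mem t y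
      refine ⟨a, ?_⟩
      have h2 : (Ideal.Quotient.mk (P.under (Algebra.adjoin K {t}))) y =
          (Ideal.Quotient.mk (P.under (Algebra.adjoin K {t}))) (algebraMap K _ a) := by
        rw [Ideal.Quotient.eq, hu]
        exact ha
      rw [h2]
      rfl
    haveI : Algebra.IsAlgebraic K (P.under (Algebra.adjoin K {t})).ResidueField := by
      constructor
      intro y
      obtain ⟨a, rfl⟩ := h1 y
      exact isAlgebraic_algebraMap a
    exact Algebra.IsAlgebraic.perfectField (K := K)
  haveI : Algebra.IsUnramifiedAt (Algebra.adjoin K {t}) P :=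
    Ideal.ramificationIdx_eq_one_iff.mp hP
  letI : Algebra (Localization.AtPrime P) F :=
    IsLocalization.localizationAlgebraOfSubmonoidLe (Localization.AtPrime P) F P.primeCompl
      (nonZeroDivisors B) P.primeCompl_le_nonZeroDivisors
  haveI : IsScalarTower B (Localization.AtPrime P) F :=
    IsLocalization.localization_isScalarTower_of_submonoid_le (Localization.AtPrime P) F
      P.primeCompl (nonZeroDivisors B) P.primeCompl_le_nonZeroDivisors
  haveI : IsScalarTower K (Localization.AtPrime P) F := by
    apply IsScalarTower.of_algebraMap_eq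
    intro a
    rw [IsScalarTower.algebraMap_apply K B F, IsScalarTower.algebraMap_apply K B (Localization.AtPrime P),
      ← IsScalarTower.algebraMap_apply B (Localization.AtPrime P) F]
  haveI : IsScalarTower (Algebra.adjoin K {t}) (Localization.AtPrime P) F := by
    apply IsScalarTower.of_algebraMap_eq
    intro a
    rw [IsScalarTower.algebraMap_apply (Algebra.adjoin K {t}) B F,
      IsScalarTower.algebraMap_apply (Algebra.adjoin K {t}) B (Localization.AtPrime P),
      ← IsScalarTower.algebraMap_apply B (Localization.AtPrime P) F]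
  -- the element `n / d` of the localization
  let y : Localization.AtPrime P := IsLocalization.mk' _ n (⟨d, hd⟩ : P.primeCompl)
  have hfrac : ∀ (n' : B) (d' : P.primeCompl), algebraMap (Localization.AtPrime P) F
      (IsLocalization.mk' _ n' d') = algebraMap B F n' / algebraMap B F d' := by
    intro n' d'
    have hd' : algebraMap B F d' ≠ 0 := by
      intro h
      have h2 : (d' : B) = 0 := by simpa using h
      exact d'.2 (h2 ▸ P.zero_mem)
    rw [eq_div_iff hd', IsScalarTower.algebraMap_apply B (Localization.AtPrime P) F d', ← map_mul,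
      IsLocalization.mk'_spec, ← IsScalarTower.algebraMap_apply]
  -- `d y` is a multiple of `d t`
  have h0 : (KaehlerDifferential.map K (Algebra.adjoin K {t}) (Localization.AtPrime P)
      (Localization.AtPrime P)) (D K (Localization.AtPrime P) y) = 0 := Subsingleton.elim _ _
  obtain ⟨s, hs⟩ := (KaehlerDifferential.exact_mapBaseChange_map K (Algebra.adjoin K {t})
    (Localization.AtPrime P) _).mp h0
  have h1 : ∃ c : Localization.AtPrime P, (KaehlerDifferential.mapBaseChange K
      (Algebra.adjoin K {t}) (Localization.AtPrime P)) s =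
      c • D K (Localization.AtPrime P) (algebraMap _ _ (gen t : Algebra.adjoin K {t})) := by
    clear hs
    induction s using TensorProduct.induction_on with
    | zero => exact ⟨0, by simp⟩
    | tmul f ω =>
      obtain ⟨b, rfl⟩ := exists_smul_adjoin_D ω
      refine ⟨f * algebraMap _ _ b, ?_⟩
      rw [mapBaseChange_tmul, map_smul, KaehlerDifferential.map_D]
      rw [← algebraMap_smul (Localization.AtPrime P) b, smul_smul]
    | add s t hs ht =>
      obtain ⟨f, hf⟩ := hs
      obtain ⟨g, hg⟩ := ht
      exact ⟨f + g, by rw [map_add, hf, hg, add_smul]⟩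
  obtain ⟨c, hc⟩ := h1
  rw [hs] at hc
  -- transport to `F`
  have h2 := congrArg (KaehlerDifferential.map K K (Localization.AtPrime P) F) hc
  rw [KaehlerDifferential.map_D, map_smul, KaehlerDifferential.map_D,
    ← IsScalarTower.algebraMap_apply, algebraMap_gen] at h2
  obtain ⟨m, e, rfl⟩ := IsLocalization.exists_mk'_eq P.primeCompl c
  refine ⟨m, e, e.2, ?_⟩
  rw [← hfrac m e, ← hfrac n ⟨d, hd⟩, h2, algebraMap_smul]

end Local

end Fermat.Agent.FF
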