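import Fermat.Agent.FF.Galois
import Mathlib.RingTheory.Valuation.ExtendToLocalization
import Mathlib.GroupTheory.Index

/-!
# Places from valuations on a ring; invariants of the fraction field
-/

set_option autoImplicit false
set_option linter.unusedSectionVars false
set_option linter.style.haveILetI false

open IsDedekindDomain WithZero IsLocalRing AlgebraicCurve IntermediateField
open scoped Pointwise

namespace Fermat.Agent.FF

section Ev

/-- The map `n ↦ exp (-n)`, `⊤ ↦ 0`. -/
noncomputable def ev (n : WithTop ℤ) : ℤᵐ⁰ := n.recTopCoe 0 (fun n : ℤ => exp (-n))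

@[simp] theorem ev_top : ev ⊤ = 0 := rfl

@[simp] theorem ev_coe (n : ℤ) : ev (n : WithTop ℤ) = exp (-n) := rfl

@[simp] theorem ev_zero : ev 0 = 1 := by
  change ev ((0 : ℤ) : WithTop ℤ) = 1
  rw [ev_coe]
  simp

theorem ev_add (m n : WithTop ℤ) : ev (m + n) = ev m * ev n := by
  induction m using WithTop.recTopCoe with
  | top => simp
  | coe m =>
    induction n using WithTop.recTopCoe with
    | top => simp
    | coe n =>
      rw [← WithTop.coe_add, ev_coe, ev_coe, ev_coe, ← exp_add]
      congr 1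
      ring

theorem ev_le {m n : WithTop ℤ} (h : m ≤ n) : ev n ≤ ev m := by
  induction n using WithTop.recTopCoe with
  | top => simp
  | coe n =>
    induction m using WithTop.recTopCoe with
    | top => simp at h
    | coe m =>
      rw [ev_coe, ev_coe, exp_le_exp]
      have : m ≤ n := by exact_mod_cast h
      omega

theorem ev_eq_zero {n : WithTop ℤ} : ev n = 0 ↔ n = ⊤ := by
  induction n using WithTop.recTopCoe with
  | top => simp
  | coe n => simp

/-- A valuation from an order function. -/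
noncomputable def valOf {R : Type*} [Ring R] (o : R → WithTop ℤ) (h0 : o 0 = ⊤) (h1 : o 1 = 0)
    (hmul : ∀ f g, o (f * g) = o f + o g) (hadd : ∀ f g, min (o f) (o g) ≤ o (f + g)) :
    Valuation R ℤᵐ⁰ where
  toFun f := ev (o f)
  map_zero' := by rw [h0, ev_top]
  map_one' := by rw [h1, ev_zero]
  map_mul' f g := by rw [hmul, ev_add]
  map_add_le_max' f g := by
    rcases min_cases (o f) (o g) with ⟨h, _⟩ | ⟨h, _⟩
    · exact (ev_le (h ▸ hadd f g)).trans (le_max_left _ _)
    · exact (ev_le (h ▸ hadd f g)).trans (le_max_right _ _)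

@[simp] theorem valOf_apply {R : Type*} [Ring R] (o : R → WithTop ℤ) (h0 : o 0 = ⊤)
    (h1 : o 1 = 0)
    (hmul : ∀ f g, o (f * g) = o f + o g) (hadd : ∀ f g, min (o f) (o g) ≤ o (f + g)) (f : R) :
    valOf o h0 h1 hmul hadd f = ev (o f) := rfl

end Ev

section PlaceOfVal

variable {K L : Type*} [Field K] [Field L] [Algebra K L] [IsFnField K L] [CharZero K]

/-- The place attached to a nontrivial valuation with values in `ℤᵐ⁰`. -/
theorem exists_place_of_valuation (ν : Valuation L ℤᵐ⁰)
    (hK : ∀ a : K, ν (algebraMap K L a) ≤ 1) {x : L} {e : ℤ} (he : 0 < e)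
    (hx : ν x = exp (-e)) :
    ∃ w : Place K L, (∀ f, f ∈ w.toValuationSubring ↔ ν f ≤ 1) ∧ 0 < w.ord x ∧ w.ord x ≤ e := by
  have hx0 : x ≠ 0 := by
    rintro rfl
    rw [map_zero] at hx
    exact exp_ne_zero hx.symm
  have hne : ν.valuationSubring ≠ ⊤ := by
    intro htop
    have h1 : x⁻¹ ∈ ν.valuationSubring := by
      rw [htop]; exact ValuationSubring.mem_top _
    rw [Valuation.mem_valuationSubring_iff, map_inv₀, hx, ← exp_neg, ← exp_zero, exp_le_exp] at h1
    omega
  obtain ⟨w, hw⟩ := exists_place_of_valuationSubring (K := K) ν.valuationSubring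
    (fun a => (Valuation.mem_valuationSubring_iff _ _).mpr (hK a)) hne
  have hmem : ∀ f, f ∈ w.toValuationSubring ↔ ν f ≤ 1 := by
    intro f
    rw [hw, Valuation.mem_valuationSubring_iff]
  have hmem' : ∀ f, 0 ≤ w.ord f ↔ ν f ≤ 1 := fun f => by
    rw [← mem_iff_ord_nonneg, hmem]
  refine ⟨w, hmem, ?_, ?_⟩
  · by_contra hcon
    have h1 : 0 ≤ w.ord x⁻¹ := by
      rw [w.ord_inv]
      omega
    rw [hmem', map_inv₀, hx, ← exp_neg, ← exp_zero, exp_le_exp] at h1
    omega
  · obtain ⟨t, ht0, ht⟩ := exists_ord_eq_one w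
    -- `ν t < 1`
    have hνt : ν t ≠ 0 := (Valuation.ne_zero_iff _).mpr ht0
    obtain ⟨m, hm⟩ : ∃ m : ℤ, ν t = exp m := ⟨log _, (exp_log hνt).symm⟩
    have hm1 : m < 0 := by
      by_contra hcon
      have h1 : 0 ≤ w.ord t⁻¹ := by
        rw [hmem', map_inv₀, hm, ← exp_neg, ← exp_zero, exp_le_exp]
        omega
      rw [w.ord_inv, ht] at h1
      omega
    set n := w.ord x with hn
    have hu : w.ord (x * t ^ (-n)) = 0 := by
      rw [w.ord_mul hx0 (zpow_ne_zero _ ht0), w.ord_zpow, ht, ← hn]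
      ring
    have h1 : ν (x * t ^ (-n)) ≤ 1 := (hmem' _).mp hu.ge
    rw [map_mul, map_zpow₀, hx, hm, ← exp_zsmul, ← exp_add, ← exp_zero, exp_le_exp,
      smul_eq_mul] at h1
    -- `-e - n m ≤ 0`
    have h3 : ν (x * t ^ (-n))⁻¹ ≤ 1 := by
      apply (hmem' _).mp
      rw [w.ord_inv, hu, neg_zero]
    rw [map_inv₀, map_mul, map_zpow₀, hx, hm, ← exp_zsmul, ← exp_add, ← exp_neg, ← exp_zero,
      exp_le_exp, smul_eq_mul] at h3
    have h4 : e = n * (-m) := by linarith
    by_contra hcon
    have hn0 : 0 < n := by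
      by_contra hn0
      have : n * (-m) ≤ 0 := mul_nonpos_of_nonpos_of_nonneg (by omega) (by omega)
      omega
    nlinarith

end PlaceOfVal

section Ring

variable {K R L : Type*} [Field K] [CommRing R] [IsDomain R] [Algebra K R] [Field L]
  [Algebra R L] [IsFractionRing R L] [Algebra K L] [IsScalarTower K R L]

/-- extension of automorphisms to the fraction field -/
noncomputable def fracAut (K R L : Type*) [Field K] [CommRing R] [IsDomain R] [Algebra K R]
    [Field L] [Algebra R L] [IsFractionRing R L] [Algebra K L] [IsScalarTower K R L] :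
    (R ≃ₐ[K] R) →* (L ≃ₐ[K] L) :=
  IsFractionRing.fieldEquivOfAlgEquivHom (A := K) (B := R) K L

@[simp] theorem fracAut_algebraMap (σ : R ≃ₐ[K] R) (f : R) :
    fracAut K R L σ (algebraMap R L f) = algebraMap R L (σ f) :=
  IsFractionRing.fieldEquivOfAlgEquiv_algebraMap K L L σ f

theorem fracAut_injective : Function.Injective (fracAut K R L) :=
  IsFractionRing.fieldEquivOfAlgEquivHom_injective K R K L

variable {𝒢 : Type*} [Group 𝒢] (α : 𝒢 →* (R ≃ₐ[K] R))

theorem finite_range_comp [Finite α.range] : Finite ((fracAut K R L).comp α).range := by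
  have h : ((fracAut K R L).comp α).range = α.range.map (fracAut K R L) := by
    rw [MonoidHom.range_comp]
  rw [h]
  exact Finite.of_surjective _ ((fracAut K R L).subgroupMap_surjective α.range)

/-- The field of invariants of the fraction field. -/
theorem mem_adjoin_of_fixed [Finite α.range] {j : R}
    (hj : ∀ f : R, (∀ g, α g f = f) → f ∈ Algebra.adjoin K {j})
    {y : L} (hy : ∀ g, fracAut K R L (α g) y = y) : y ∈ K⟮algebraMap R L j⟯ := by
  classical
  haveI : Fintype α.range := Fintype.ofFinite _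
  obtain ⟨a, b, hb, rfl⟩ := IsFractionRing.div_surjective (A := R) y
  have hb0 : b ≠ 0 := nonZeroDivisors.ne_zero hb
  have hb1 : algebraMap R L b ≠ 0 := by simpa using hb0
  let N : R := ∏ σ : α.range, (σ : R ≃ₐ[K] R) b
  let b' : R := ∏ σ ∈ (Finset.univ : Finset α.range).erase 1, (σ : R ≃ₐ[K] R) b
  have hN : N = b * b' := by
    change ∏ σ : α.range, (σ : R ≃ₐ[K] R) b = b * _
    rw [← Finset.mul_prod_erase Finset.univ _ (Finset.mem_univ (1 : α.range))]
    rfl
  have hN0 : N ≠ 0 := by
    change ∏ σ : α.range, (σ : R ≃ₐ[K] R) b ≠ 0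
    rw [Finset.prod_ne_zero_iff]
    intro σ _
    simpa using hb0
  have hNfix : ∀ g, α g N = N := by
    intro g
    change α g (∏ σ : α.range, (σ : R ≃ₐ[K] R) b) = ∏ σ : α.range, (σ : R ≃ₐ[K] R) b
    rw [map_prod]
    refine Fintype.prod_equiv (Equiv.mulLeft (⟨α g, g, rfl⟩ : α.range)) _ _ fun σ => ?_
    rfl
  have hN1 : algebraMap R L N ≠ 0 := by simpa using hN0
  have hr : algebraMap R L (a * b') = algebraMap R L a / algebraMap R L b * algebraMap R L N := by
    rw [hN, map_mul, map_mul]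
    field_simp
  have hrfix : ∀ g, α g (a * b') = a * b' := by
    intro g
    apply IsFractionRing.injective R L
    rw [← fracAut_algebraMap (K := K), hr, map_mul, hy g, fracAut_algebraMap, hNfix]
  have hmem : ∀ f : R, (∀ g, α g f = f) → algebraMap R L f ∈ K⟮algebraMap R L j⟯ := by
    intro f hf
    have h1 := hj f hf
    have h2 : Algebra.adjoin K {j} ≤ (K⟮algebraMap R L j⟯).toSubalgebra.comap
        (IsScalarTower.toAlgHom K R L) := by
      apply Algebra.adjoin_le
      rintro _ rfl
      exact IntermediateField.mem_adjoin_simple_self K _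
    exact h2 h1
  have h3 : algebraMap R L a / algebraMap R L b = algebraMap R L (a * b') / algebraMap R L N := by
    rw [hr, mul_div_assoc, div_self hN1, mul_one]
  rw [h3]
  exact div_mem (hmem _ hrfix) (hmem _ hNfix)

/-- extension of a valuation to the fraction field -/
noncomputable def extVal (v : Valuation R ℤᵐ⁰) (hv : ∀ f, v f = 0 → f = 0) : Valuation L ℤᵐ⁰ :=
  v.extendToLocalization (S := nonZeroDivisors R) (by
    intro f hf hf0
    exact nonZeroDivisors.ne_zero hf (hv f hf0)) L

@[simp] theorem extVal_algebraMap (v : Valuation R ℤᵐ⁰) (hv : ∀ f, v f = 0 → f = 0) (f : R) :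
    (extVal v hv : Valuation L ℤᵐ⁰) (algebraMap R L f) = v f :=
  Valuation.extendToLocalization_apply_map_apply _ _ _ _

theorem extVal_fracAut (v : Valuation R ℤᵐ⁰) (hv : ∀ f, v f = 0 → f = 0) (σ : R ≃ₐ[K] R)
    (hσ : ∀ f, v (σ f) = v f) (y : L) :
    (extVal v hv : Valuation L ℤᵐ⁰) (fracAut K R L σ y) = extVal v hv y := by
  obtain ⟨a, b, hb, rfl⟩ := IsFractionRing.div_surjective (A := R) y
  rw [map_div₀, map_div₀, map_div₀, fracAut_algebraMap, fracAut_algebraMap]
  simp only [extVal_algebraMap, hσ]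

theorem smul_eq_of_valuation [IsFnField K L] [CharZero K] {ν : Valuation L ℤᵐ⁰} {w : Place K L}
    (hw : ∀ f, f ∈ w.toValuationSubring ↔ ν f ≤ 1) (σ : L ≃ₐ[K] L) (hσ : ∀ f, ν (σ f) = ν f) :
    σ • w = w := by
  ext f
  rw [mem_iff_ord_nonneg, mem_iff_ord_nonneg]
  have h1 : f = σ (σ⁻¹ f) := by
    rw [← AlgEquiv.mul_apply, mul_inv_cancel, AlgEquiv.one_apply]
  have h2 : (σ • w).ord f = w.ord (σ⁻¹ f) := by
    conv_lhs => rw [h1]
    rw [Place.ord_smul]
  rw [h2, ← mem_iff_ord_nonneg, ← mem_iff_ord_nonneg, hw, hw]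
  conv_rhs => rw [h1]
  rw [hσ]

end Ring

end Fermat.Agent.FF
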